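import Mathlib
import Fermat.Prelude.Def_FLTPrelim_ModularRep
import Fermat.Prelude.Def_FLTPrelim_Ramification

/-!
# Programme II, block A3b: contract `K3BetaOut` (endgame (C3) of K1, "β-form")

Statement only (a `Prop`), no proof here.  It merges "Kummer endgame + Lemma K + K3′" into one
elementary statement about a Weierstrass curve over `ℤ` with good reduction at an odd prime `p`:

* `B` a valuation subring of `ℚ̄` over `p`, `I = B.inertiaSubgroupIn ℚ`, `I₁ = {t ∈ I | t ζ = ζ}`;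
* `P₀, T₀ ∈ W[p](ℚ̄)` with the SHAPE delivered by Programme I (TorEps + KillsNew):
  (S1′) `t P₀ - P₀ ∈ ℤ T₀` for all `t ∈ I`;  (S2) `t T₀ = χ(t) T₀` for all `t ∈ I`;
* `β ^ p = p ^ n * u`, `u` a `B`-unit fixed by `I₁`, and (S3′) every `s ∈ I₁` fixing `P₀` fixes `β`
  (this is what K1/T5 hands over: `β` is fixed by the stabiliser of the class `x ↔ P₀`);

conclusion: `p ∣ n` (this is what K2 consumes: `a_e ≡ a_e' (mod p)`).

Proof plan (by hand, on the landed `S05/{Kernel,Sep,Val,Good}` and `S13/InertiaValue` libraries, no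
formal group, no Hopf algebra, no `I_u`): see the finding `II/K3Beta contract v1`.
-/

set_option autoImplicit false

namespace Fermat.Agent.FF4.K3Beta

open WeierstrassCurve WeierstrassCurve.Affine

/-- **Contract K3″ (β-form).** -/
def K3BetaOut : Prop :=
  ∀ (W : WeierstrassCurve ℤ) (p : ℕ), p.Prime → p ≠ 2 → W.IsGoodPrimeFor p →
    ∀ (B : ValuationSubring (AlgebraicClosure ℚ)), B.LiesOverPrime p →
    ∀ (ζ : AlgebraicClosure ℚ), IsPrimitiveRoot ζ p →
    ∀ (P₀ T₀ : ((W.map (Int.castRingHom ℚ))⁄(AlgebraicClosure ℚ)).Point),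
      (p : ℤ) • P₀ = 0 → (p : ℤ) • T₀ = 0 →
      -- (S1′) inertia moves `P₀` inside `P₀ + ℤ T₀`
      (∀ t ∈ B.inertiaSubgroupIn ℚ, ∃ k : ℤ, t • P₀ - P₀ = k • T₀) →
      -- (S2) inertia acts on `T₀` through the mod `p` cyclotomic character
      (∀ t ∈ B.inertiaSubgroupIn ℚ, ∀ c : ℕ, t ζ = ζ ^ c → t • T₀ = c • T₀) →
    ∀ (β u : AlgebraicClosure ℚ) (n : ℤ),
      β ^ p = (p : AlgebraicClosure ℚ) ^ n * u →
      B.valuation u = 1 →
      (∀ t ∈ B.inertiaSubgroupIn ℚ, t ζ = ζ → t u = u) →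
      -- (S3′) the elements of `I₁` fixing `P₀` fix `β`
      (∀ s ∈ B.inertiaSubgroupIn ℚ, s ζ = ζ → s • P₀ = P₀ → s β = β) →
      (p : ℤ) ∣ n

end Fermat.Agent.FF4.K3Beta
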