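import Mathlib
import Fermat.Agent.S05.Defs
import Fermat.Agent.S05.Kernel
import Fermat.Agent.S05.Sep
import Fermat.Agent.S05.Integral

/-!
# K3Beta: the curve-side estimates (S05 dialect, any valued field)

* `val_zOf_sq` : `v (x / y) ^ 2 = (v x)⁻¹` on the kernel of reduction;
* `val_addX_eq` : `v (addX x₁ x₂ ℓ) = v ℓ ^ 2` for integral `x₁ x₂` and `1 < v ℓ`;
* `inLevel_sub_of_congr` : the QUANTITATIVE separation lemma (clone of `S05.sub_inKer_of_congr`
  keeping track of the level);
* `val_mul_zOf_le_of_nsmul_eq_zero` (weak torsion bound), `val_zOf_nsmul_sub_le`;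
* `xOf`, `yOf`, `zOf` are equivariant for inertia-like maps;
* `val_zOf_add_sub_eq` : `v (z (P + T) - z P) = v (z T)` when `v (z P) ^ 2 < v (z T)`.
-/

set_option autoImplicit false

namespace Fermat.Agent.FF4.K3Beta

open WeierstrassCurve WeierstrassCurve.Affine
open Fermat.Agent.S05 Fermat.Agent.S05.Kernel

variable {K : Type*} [Field K] {Γ₀ : Type*} [LinearOrderedCommGroupWithZero Γ₀]
variable {v : Valuation K Γ₀} {W : WeierstrassCurve K}

/-- `v (x / y) ^ 2 = (v x)⁻¹` for a point of the kernel of reduction. -/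
theorem val_zOf_sq (hW : IntegralCoeffs v W) {x y : K} (h : W.toAffine.Equation x y)
    (hx : 1 < v x) : v (x / y) ^ 2 = (v x)⁻¹ := by
  have hx0 : v x ≠ 0 := (zero_lt_one.trans hx).ne'
  have hy := val_y_sq_eq hW h hx
  rw [map_div₀, div_pow, hy]
  field_simp

theorem val_addX_eq (hW : IntegralCoeffs v W) {x₁ x₂ ℓ : K} (h₁ : v x₁ ≤ 1) (h₂ : v x₂ ≤ 1)
    (hℓ : 1 < v ℓ) : v (W.toAffine.addX x₁ x₂ ℓ) = v ℓ ^ 2 := by
  have hℓ0 : v ℓ ≠ 0 := fun h => by simp [h] at hℓ
  have hℓℓ : v ℓ < v ℓ * v ℓ := by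
    calc v ℓ = v ℓ * 1 := (mul_one _).symm
      _ < v ℓ * v ℓ := mul_lt_mul_of_pos_left hℓ (zero_lt_iff.mpr hℓ0)
  have h1 : v (W.a₁ * ℓ) < v (ℓ ^ 2) := by
    rw [map_mul, map_pow, pow_two]
    calc v W.a₁ * v ℓ ≤ 1 * v ℓ := by gcongr; exact hW.a₁
      _ = v ℓ := one_mul _
      _ < v ℓ * v ℓ := hℓℓ
  have hsq : 1 < v (ℓ ^ 2) := by
    rw [map_pow, pow_two]; exact hℓ.trans hℓℓ
  have e1 : v (ℓ ^ 2 + W.a₁ * ℓ) = v (ℓ ^ 2) := Valuation.map_add_eq_of_lt_left v h1
  have e2 : v (ℓ ^ 2 + W.a₁ * ℓ - W.a₂) = v (ℓ ^ 2) := by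
    rw [← e1]; apply Valuation.map_sub_eq_of_lt_left; rw [e1]; exact lt_of_le_of_lt hW.a₂ hsq
  have e3 : v (ℓ ^ 2 + W.a₁ * ℓ - W.a₂ - x₁) = v (ℓ ^ 2) := by
    rw [← e2]; apply Valuation.map_sub_eq_of_lt_left; rw [e2]; exact lt_of_le_of_lt h₁ hsq
  have e4 : v (ℓ ^ 2 + W.a₁ * ℓ - W.a₂ - x₁ - x₂) = v (ℓ ^ 2) := by
    rw [← e3]; apply Valuation.map_sub_eq_of_lt_left; rw [e3]; exact lt_of_le_of_lt h₂ hsq
  simp only [addX]
  rw [e4, map_pow]

/-- `ρ⁻¹ ≤ v (a / b)` when `v a = 1`, `v b ≤ ρ`, `b ≠ 0`. -/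
theorem inv_le_val_div {a b : K} {ρ : Γ₀} (ha : v a = 1) (hb : v b ≤ ρ) (hb0 : b ≠ 0) :
    ρ⁻¹ ≤ v (a / b) := by
  have hvb : 0 < v b := zero_lt_iff.mpr ((Valuation.ne_zero_iff v).mpr hb0)
  rw [map_div₀, ha, one_div]
  exact inv_anti₀ hvb hb

variable [DecidableEq K]

/-- **Quantitative separation lemma.** Two integral points `(x, y)`, `(x', y')` with
`v (x' - x) ≤ ρ`, `v (y' - y) ≤ ρ`, `ρ < 1`, at a point where one of the partial derivatives is a
unit: the difference lies in the level `ρ⁻²` of the kernel of reduction. -/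
theorem inLevel_sub_of_congr (hW : IntegralCoeffs v W)
    {x y x' y' : K} (h : W.toAffine.Nonsingular x y) (h' : W.toAffine.Nonsingular x' y')
    (hx : v x ≤ 1) (hy : v y ≤ 1) {ρ : Γ₀} (hρ : ρ < 1) (hxρ : v (x' - x) ≤ ρ)
    (hyρ : v (y' - y) ≤ ρ)
    (hns : v (W.a₁ * y - (3 * x ^ 2 + 2 * W.a₂ * x + W.a₄)) = 1 ∨
      v (2 * y + W.a₁ * x + W.a₃) = 1) :
    InLevel v W ((ρ⁻¹) ^ 2) (Point.some x' y' h' - Point.some x y h) := by
  have hxx : v (x' - x) < 1 := lt_of_le_of_lt hxρ hρ
  have hyy : v (y' - y) < 1 := lt_of_le_of_lt hyρ hρ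
  have hx' : v x' ≤ 1 := by
    have : x' = (x' - x) + x := by ring
    rw [this]; exact Valuation.map_add_le v hxx.le hx
  have hy' : v y' ≤ 1 := by
    have : y' = (y' - y) + y := by ring
    rw [this]; exact Valuation.map_add_le v hyy.le hy
  have heq := (equation_iff _ _).mp h.1
  have heq' := (equation_iff _ _).mp h'.1
  -- the common conclusion from a slope bound
  have fin : ∀ {x₁ x₂ ℓ : K}, v x₁ ≤ 1 → v x₂ ≤ 1 → 1 < v ℓ → ρ⁻¹ ≤ v ℓ →
      (ρ⁻¹) ^ 2 ≤ v (W.toAffine.addX x₁ x₂ ℓ) := by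
    intro x₁ x₂ ℓ h₁ h₂ hℓ hρℓ
    rw [val_addX_eq hW h₁ h₂ hℓ]
    exact pow_le_pow_left₀ zero_le hρℓ 2
  rw [sub_eq_add_neg, Point.neg_some]
  by_cases hxeq : x' = x
  · subst hxeq
    by_cases hyeq : y' = W.toAffine.negY x' (W.toAffine.negY x' y)
    · left
      exact Point.add_of_Y_eq rfl hyeq
    · rw [negY_negY] at hyeq
      have hyn : y' = W.toAffine.negY x' y :=
        (Y_eq_of_X_eq h'.1 h.1 rfl).resolve_left hyeq
      subst hyn
      right
      have hne : W.toAffine.negY x' y ≠ W.toAffine.negY x' (W.toAffine.negY x' y) := by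
        rw [negY_negY]; exact hyeq
      rw [Point.add_of_Y_ne hne]
      refine ⟨_, _, _, rfl, ?_⟩
      have hden : W.toAffine.negY x' y - W.toAffine.negY x' (W.toAffine.negY x' y)
          = -(2 * y + W.a₁ * x' + W.a₃) := by
        simp only [negY]; ring
      have hψ : 2 * y + W.a₁ * x' + W.a₃ = -(W.toAffine.negY x' y - y) := by
        simp only [negY]; ring
      have hden_le : v (2 * y + W.a₁ * x' + W.a₃) ≤ ρ := by
        rw [hψ, Valuation.map_neg]; exact hyρ
      have hden_small : v (2 * y + W.a₁ * x' + W.a₃) < 1 := lt_of_le_of_lt hden_le hρ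
      have hFx : v (W.a₁ * y - (3 * x' ^ 2 + 2 * W.a₂ * x' + W.a₄)) = 1 := by
        rcases hns with h1 | h2
        · exact h1
        · exact absurd h2 hden_small.ne
      have hnum : v (3 * x' ^ 2 + 2 * W.a₂ * x' + W.a₄ - W.a₁ * W.toAffine.negY x' y) = 1 := by
        have e : 3 * x' ^ 2 + 2 * W.a₂ * x' + W.a₄ - W.a₁ * W.toAffine.negY x' y
            = -(W.a₁ * y - (3 * x' ^ 2 + 2 * W.a₂ * x' + W.a₄))
              + W.a₁ * (2 * y + W.a₁ * x' + W.a₃) := by
          simp only [negY]; ring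
        rw [e]
        have hsmall : v (W.a₁ * (2 * y + W.a₁ * x' + W.a₃)) < 1 := by
          rw [map_mul]
          calc v W.a₁ * v (2 * y + W.a₁ * x' + W.a₃) ≤ 1 * v (2 * y + W.a₁ * x' + W.a₃) := by
                gcongr; exact hW.a₁
            _ = _ := one_mul _
            _ < 1 := hden_small
        rw [Valuation.map_add_eq_of_lt_left v (by rw [Valuation.map_neg, hFx]; exact hsmall),
          Valuation.map_neg, hFx]
      have hden0 : W.toAffine.negY x' y - W.toAffine.negY x' (W.toAffine.negY x' y) ≠ 0 :=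
        sub_ne_zero.mpr hne
      rw [slope_of_Y_ne rfl hne]
      apply fin hx' hx'
      · apply one_lt_div hnum _ hden0
        rw [hden, Valuation.map_neg]; exact hden_small
      · apply inv_le_val_div hnum _ hden0
        rw [hden, Valuation.map_neg]; exact hden_le
  · right
    rw [Point.add_of_X_ne hxeq]
    refine ⟨_, _, _, rfl, ?_⟩
    rw [slope_of_X_ne hxeq]
    have hden0 : x' - x ≠ 0 := sub_ne_zero.mpr hxeq
    have hnum_eq : y' - W.toAffine.negY x y = (2 * y + W.a₁ * x + W.a₃) + (y' - y) := by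
      simp only [negY]; ring
    have hFyunit : v (2 * y + W.a₁ * x + W.a₃) = 1 →
        (ρ⁻¹) ^ 2 ≤ v (W.toAffine.addX x' x ((y' - W.toAffine.negY x y) / (x' - x))) := by
      intro hFy
      have hnum : v (y' - W.toAffine.negY x y) = 1 := by
        rw [hnum_eq, Valuation.map_add_eq_of_lt_left v (by rw [hFy]; exact hyy), hFy]
      exact fin hx' hx (one_lt_div hnum hxx hden0) (inv_le_val_div hnum hxρ hden0)
    rcases hns with hFx | hFy
    · by_cases hFy : v (2 * y + W.a₁ * x + W.a₃) = 1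
      · exact hFyunit hFy
      · have hFy_le : v (2 * y + W.a₁ * x + W.a₃) ≤ 1 := by
          apply Valuation.map_add_le v (Valuation.map_add_le v _ _) hW.a₃
          · rw [map_mul]
            have h2 : v (2 : K) ≤ 1 := by
              have : (2 : K) = 1 + 1 := by norm_num
              rw [this]; exact Valuation.map_add_le v (by simp) (by simp)
            calc v 2 * v y ≤ 1 * 1 := by gcongr
              _ = 1 := one_mul _
          · rw [map_mul]
            calc v W.a₁ * v x ≤ 1 * 1 := by gcongr; exact hW.a₁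
              _ = 1 := one_mul _
        have hFy_lt : v (2 * y + W.a₁ * x + W.a₃) < 1 := lt_of_le_of_ne hFy_le hFy
        set G := x' ^ 2 + x' * x + x ^ 2 + W.a₂ * (x' + x) + W.a₄ - W.a₁ * y with hG
        set H := y' + y + W.a₁ * x' + W.a₃ with hH
        have key : (y' - y) * H = (x' - x) * G := by
          rw [hG, hH]; linear_combination heq' - heq
        have hGval : v G = 1 := by
          have e : G = -(W.a₁ * y - (3 * x ^ 2 + 2 * W.a₂ * x + W.a₄))
              + (x' - x) * (x' + 2 * x + W.a₂) := by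
            rw [hG]; ring
          have hsmall : v ((x' - x) * (x' + 2 * x + W.a₂)) < 1 := by
            rw [map_mul]
            have h2 : v (2 : K) ≤ 1 := by
              have : (2 : K) = 1 + 1 := by norm_num
              rw [this]; exact Valuation.map_add_le v (by simp) (by simp)
            have : v (x' + 2 * x + W.a₂) ≤ 1 := by
              apply Valuation.map_add_le v (Valuation.map_add_le v hx' _) hW.a₂
              rw [map_mul]
              calc v 2 * v x ≤ 1 * 1 := by gcongr
                _ = 1 := one_mul _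
            calc v (x' - x) * v (x' + 2 * x + W.a₂) ≤ v (x' - x) * 1 := by gcongr
              _ = v (x' - x) := mul_one _
              _ < 1 := hxx
          rw [e, Valuation.map_add_eq_of_lt_left v (by rw [Valuation.map_neg, hFx]; exact hsmall),
            Valuation.map_neg, hFx]
        have hG0 : G ≠ 0 := by
          intro h0; rw [h0, map_zero] at hGval; exact zero_ne_one hGval
        have hyne : y' - y ≠ 0 := by
          intro h0
          rw [h0, zero_mul] at key
          exact (mul_ne_zero hden0 hG0) key.symm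
        have hslope : (y' - W.toAffine.negY x y) / (x' - x) = G / (y' - y) - W.a₁ := by
          have e : y' - W.toAffine.negY x y = H - W.a₁ * (x' - x) := by
            simp only [negY, hH]; ring
          rw [e]
          field_simp
          linear_combination key
        have hbig : 1 < v (G / (y' - y)) := one_lt_div hGval hyy hyne
        have hval : v ((y' - W.toAffine.negY x y) / (x' - x)) = v (G / (y' - y)) := by
          rw [hslope, Valuation.map_sub_eq_of_lt_left v (lt_of_le_of_lt hW.a₁ hbig)]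
        apply fin hx' hx
        · rw [hval]; exact hbig
        · rw [hval]; exact inv_le_val_div hGval hyρ hyne
    · exact hFyunit hFy

/-! ### The local parameter and torsion -/

/-- weak torsion bound: `n • P = 0` in the kernel of reduction forces `v n * v z ≤ v z ^ 2`. -/
theorem val_mul_zOf_le_of_nsmul_eq_zero (hW : IntegralCoeffs v W) {x y : K}
    (h : W.toAffine.Nonsingular x y) (hx : 1 < v x) {n : ℕ} (hn : n • Point.some x y h = 0) :
    v (n : K) * v (x / y) ≤ v (x / y) ^ 2 := by
  have hlev : InLevel v W (v x) (Point.some x y h) := Or.inr ⟨x, y, h, rfl, le_rfl⟩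
  obtain ⟨-, h2⟩ := level_nsmul hW hx hlev n
  rw [hn, zOf_zero, zOf_some, zero_sub, Valuation.map_neg, map_mul] at h2
  rwa [val_zOf_sq hW h.1 hx]

/-- `z (c • P) ≡ c z (P)` modulo `z(P)²` in the kernel of reduction. -/
theorem val_zOf_nsmul_sub_le (hW : IntegralCoeffs v W) {x y : K}
    (h : W.toAffine.Nonsingular x y) (hx : 1 < v x) (c : ℕ) :
    v (zOf W (c • Point.some x y h) - (c : K) * (x / y)) ≤ v (x / y) ^ 2 := by
  have hlev : InLevel v W (v x) (Point.some x y h) := Or.inr ⟨x, y, h, rfl, le_rfl⟩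
  obtain ⟨-, h2⟩ := level_nsmul hW hx hlev c
  rwa [zOf_some, ← val_zOf_sq hW h.1 hx] at h2

/-- The `x`-coordinate (`0` at infinity). -/
def xOf (W : WeierstrassCurve K) : W.toAffine.Point → K
  | .zero => 0
  | .some x _ _ => x

/-- The `y`-coordinate (`0` at infinity). -/
def yOf (W : WeierstrassCurve K) : W.toAffine.Point → K
  | .zero => 0
  | .some _ y _ => y

omit [DecidableEq K] in
@[simp] theorem xOf_some {x y : K} (h : W.toAffine.Nonsingular x y) :
    xOf W (Point.some x y h) = x := rfl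

omit [DecidableEq K] in
@[simp] theorem yOf_some {x y : K} (h : W.toAffine.Nonsingular x y) :
    yOf W (Point.some x y h) = y := rfl

section Equivariance

variable {σ : K →+* K} {f : W.toAffine.Point →+ W.toAffine.Point}

theorem xOf_map (hf : InertiaLike v W σ f) (P : W.toAffine.Point) : xOf W (f P) = σ (xOf W P) := by
  rcases P with _ | ⟨x, y, h⟩
  · have h0 : (Point.zero : W.toAffine.Point) = 0 := rfl
    rw [h0, map_zero]
    show (0 : K) = σ 0
    rw [map_zero]
  · obtain ⟨h', hfP⟩ := hf.map_some x y h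
    rw [hfP]; rfl

theorem yOf_map (hf : InertiaLike v W σ f) (P : W.toAffine.Point) : yOf W (f P) = σ (yOf W P) := by
  rcases P with _ | ⟨x, y, h⟩
  · have h0 : (Point.zero : W.toAffine.Point) = 0 := rfl
    rw [h0, map_zero]
    show (0 : K) = σ 0
    rw [map_zero]
  · obtain ⟨h', hfP⟩ := hf.map_some x y h
    rw [hfP]; rfl

theorem zOf_map (hf : InertiaLike v W σ f) (P : W.toAffine.Point) : zOf W (f P) = σ (zOf W P) := by
  rcases P with _ | ⟨x, y, h⟩
  · have h0 : (Point.zero : W.toAffine.Point) = 0 := rfl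
    rw [h0, map_zero, zOf_zero, map_zero]
  · obtain ⟨h', hfP⟩ := hf.map_some x y h
    rw [hfP, zOf_some, zOf_some, map_div₀]

theorem inKer_map (hf : InertiaLike v W σ f) {P : W.toAffine.Point} (hP : InKer v W P) :
    InKer v W (f P) := by
  rcases hP with rfl | ⟨x, y, h, rfl, hx⟩
  · left; exact map_zero f
  · obtain ⟨h', hfP⟩ := hf.map_some x y h
    right
    exact ⟨_, _, h', hfP, by rw [hf.val_eq]; exact hx⟩

end Equivariance

/-- In the kernel of reduction, `v (z (P + T) - z P) = v (z T)` as soon as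
`v (z P) ^ 2 < v (z T)`. -/
theorem val_zOf_add_sub_eq (hW : IntegralCoeffs v W) {P T : W.toAffine.Point}
    (hP : InKer v W P) {x y : K} {h : W.toAffine.Nonsingular x y} (hT : T = Point.some x y h)
    (hx : 1 < v x) (hsq : v (zOf W P) ^ 2 < v (zOf W T)) :
    v (zOf W (P + T) - zOf W P) = v (zOf W T) := by
  subst hT
  have hzT : v (zOf W (Point.some x y h)) ^ 2 = (v x)⁻¹ := by
    rw [zOf_some]; exact val_zOf_sq hW h.1 hx
  have hzT0 : 0 < v (zOf W (Point.some x y h)) := by
    rw [zOf_some, map_div₀]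
    exact div_pos (zero_lt_one.trans hx) (val_y_pos hW h.1 hx)
  have hzT1 : v (zOf W (Point.some x y h)) ^ 2 < v (zOf W (Point.some x y h)) := by
    have hlt : v (zOf W (Point.some x y h)) < 1 := by
      by_contra hge
      push Not at hge
      have : 1 ≤ v (zOf W (Point.some x y h)) ^ 2 := one_le_pow₀ hge
      rw [hzT] at this
      exact absurd (inv_lt_one_of_one_lt₀ hx) (not_lt.mpr this)
    rw [pow_two]
    calc v (zOf W (Point.some x y h)) * v (zOf W (Point.some x y h))
        < v (zOf W (Point.some x y h)) * 1 := mul_lt_mul_of_pos_left hlt hzT0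
      _ = _ := mul_one _
  rcases hP with rfl | ⟨xP, yP, hP', rfl, hxP⟩
  · rw [zero_add, zOf_zero, sub_zero]
  · -- common level
    set m : Γ₀ := min (v xP) (v x) with hm
    have hm1 : 1 < m := lt_min hxP hx
    have hm0 : 0 < m := zero_lt_one.trans hm1
    have hlP : InLevel v W m (Point.some xP yP hP') := Or.inr ⟨_, _, _, rfl, min_le_left _ _⟩
    have hlT : InLevel v W m (Point.some x y h) := Or.inr ⟨_, _, _, rfl, min_le_right _ _⟩
    obtain ⟨-, hadd⟩ := level_add hW hm1 hlP hlT
    have hzP : v (zOf W (Point.some xP yP hP')) ^ 2 = (v xP)⁻¹ := by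
      rw [zOf_some]; exact val_zOf_sq hW hP'.1 hxP
    have hminv : m⁻¹ < v (zOf W (Point.some x y h)) := by
      rcases min_choice (v xP) (v x) with hc | hc
      · rw [hm, hc, ← hzP]; exact hsq
      · rw [hm, hc, ← hzT]; exact hzT1
    have e : zOf W (Point.some xP yP hP' + Point.some x y h) - zOf W (Point.some xP yP hP')
        = (zOf W (Point.some xP yP hP' + Point.some x y h) - zOf W (Point.some xP yP hP')
            - zOf W (Point.some x y h)) + zOf W (Point.some x y h) := by ring
    rw [e, Valuation.map_add_eq_of_lt_right v (lt_of_le_of_lt hadd hminv)]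

end Fermat.Agent.FF4.K3Beta
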