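import Mathlib
import Fermat.Agent.S13.InertiaValue
import Fermat.Agent.BR3.WildCyclo

/-!
# K3Beta, leaf G1: the value group of the elements fixed by `I₁ = ker (χ|_I)`

`B` a valuation subring of `ℚ̄` over the prime `p`, `I = B.inertiaSubgroupIn ℚ`, `ζ` a primitive
`p`-th root of unity, `χ = chi hζ` the mod `p` cyclotomic character.

* `chi_spec`, `chi_eq_one_iff`, `exists_inertia_chi_eq` (`χ` is onto on inertia: landed
  `BR3.WildCyclo.exists_inertia_apply_eq_pow`);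
* `exists_zpow_eq_of_fixed` : `x ≠ 0` fixed by `I₁` ⇒ `v x ^ (p - 1) = v p ^ m` for some `m : ℤ`
  (norm over `(ℤ/p)ˣ` + landed `S13.valuation_eq_zpow_of_inertia_fixed`);
* `dvd_of_fixed` : **Step 0** of K3Beta: `β ^ p = p ^ n * u`, `u` a unit, `β` fixed by `I₁` ⇒ `p ∣ n`.
-/

set_option autoImplicit false

namespace Fermat.Agent.FF4.K3Beta

local notation "Qb" => AlgebraicClosure ℚ
local notation "GQ" => (AlgebraicClosure ℚ ≃ₐ[ℚ] AlgebraicClosure ℚ)

variable {p : ℕ} [hp : Fact p.Prime] {ζ : Qb} (hζ : IsPrimitiveRoot ζ p)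

/-- The mod `p` cyclotomic character. -/
noncomputable def chi : GQ →* (ZMod p)ˣ := hζ.autToPow ℚ

theorem chi_spec (t : GQ) : t ζ = ζ ^ ((chi hζ t : (ZMod p)ˣ) : ZMod p).val :=
  (hζ.autToPow_spec ℚ t).symm

include hζ in
theorem pow_eq_pow_iff {i j : ℕ} : ζ ^ i = ζ ^ j ↔ i % p = j % p := by
  have h0 : ∀ k : ℕ, ζ ^ k = ζ ^ (k % p) := fun k => by
    conv_lhs => rw [← Nat.mod_add_div k p]
    rw [pow_add, pow_mul, hζ.pow_eq_one, one_pow, mul_one]
  constructor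
  · intro h
    rw [h0 i, h0 j] at h
    exact hζ.pow_inj (Nat.mod_lt _ hp.out.pos) (Nat.mod_lt _ hp.out.pos) h
  · intro h
    rw [h0 i, h0 j, h]

theorem chi_eq_of_apply_eq {t : GQ} {c : (ZMod p)ˣ} (h : t ζ = ζ ^ ((c : (ZMod p)ˣ) : ZMod p).val) :
    chi hζ t = c := by
  rw [chi_spec hζ t, pow_eq_pow_iff hζ, Nat.mod_eq_of_lt (ZMod.val_lt _),
    Nat.mod_eq_of_lt (ZMod.val_lt _)] at h
  exact Units.ext (ZMod.val_injective p h)

theorem chi_eq_one_iff (t : GQ) : chi hζ t = 1 ↔ t ζ = ζ := by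
  constructor
  · intro h
    rw [chi_spec hζ t, h, Units.val_one, ZMod.val_one, pow_one]
  · intro h
    apply chi_eq_of_apply_eq hζ
    rw [h, Units.val_one, ZMod.val_one, pow_one]

/-- `t ζ = ζ ^ c` determines `χ t` modulo `p`. -/
theorem chi_val_eq_of_apply_eq {t : GQ} {c : ℕ} (h : t ζ = ζ ^ c) :
    ((chi hζ t : (ZMod p)ˣ) : ZMod p) = (c : ZMod p) := by
  rw [chi_spec hζ t, pow_eq_pow_iff hζ, Nat.mod_eq_of_lt (ZMod.val_lt _)] at h
  rw [← ZMod.natCast_zmod_val ((chi hζ t : (ZMod p)ˣ) : ZMod p), h, ZMod.natCast_mod]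

variable (B : ValuationSubring Qb) (hB : B.LiesOverPrime p)

include hB in
/-- `χ` is onto on the inertia group at `p`. -/
theorem exists_inertia_chi_eq (c : (ZMod p)ˣ) : ∃ g ∈ B.inertiaSubgroupIn ℚ, chi hζ g = c := by
  have hc : ¬ p ∣ ((c : (ZMod p)ˣ) : ZMod p).val := by
    intro hdvd
    have h0 : ((c : (ZMod p)ˣ) : ZMod p).val = 0 :=
      Nat.eq_zero_of_dvd_of_lt hdvd (ZMod.val_lt _)
    rw [ZMod.val_eq_zero] at h0
    exact c.ne_zero h0
  obtain ⟨σ, hσ, hσζ, -⟩ := BR3.WildCyclo.exists_inertia_apply_eq_pow hp.out hζ B hB hc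
  exact ⟨σ, hσ, chi_eq_of_apply_eq hζ hσζ⟩

include hζ hB in
/-- **(G1)** A nonzero element fixed by `I₁` has `v x ^ (p - 1) ∈ v p ^ ℤ`. -/
theorem exists_zpow_eq_of_fixed {x : Qb} (hx : x ≠ 0)
    (hfix : ∀ t ∈ B.inertiaSubgroupIn ℚ, t ζ = ζ → t x = x) :
    ∃ m : ℤ, B.valuation x ^ (p - 1) = B.valuation (p : Qb) ^ m := by
  classical
  choose g hgI hgχ using exists_inertia_chi_eq hζ B hB
  -- the key property
  have key : ∀ σ ∈ B.inertiaSubgroupIn ℚ, ∀ c : (ZMod p)ˣ, σ (g c x) = g (chi hζ σ * c) x := by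
    intro σ hσ c
    set h : GQ := (g (chi hζ σ * c))⁻¹ * σ * g c with hh
    have hhI : h ∈ B.inertiaSubgroupIn ℚ :=
      mul_mem (mul_mem (inv_mem (hgI _)) hσ) (hgI _)
    have hhχ : chi hζ h = 1 := by
      rw [hh, map_mul, map_mul, map_inv, hgχ, hgχ]
      group
    have hhx : h x = x := hfix h hhI ((chi_eq_one_iff hζ h).mp hhχ)
    have : σ (g c x) = g (chi hζ σ * c) (h x) := by
      rw [hh]
      simp only [AlgEquiv.mul_apply]
      rw [AlgEquiv.aut_inv, AlgEquiv.apply_symm_apply]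
    rw [this, hhx]
  set N : Qb := ∏ c : (ZMod p)ˣ, g c x with hN
  have hN0 : N ≠ 0 := by
    rw [hN, Finset.prod_ne_zero_iff]
    intro c _
    exact (map_ne_zero_iff _ (g c).injective).mpr hx
  have hNfix : ∀ σ ∈ B.inertiaSubgroupIn ℚ, σ N = N := by
    intro σ hσ
    rw [hN, map_prod]
    calc ∏ c : (ZMod p)ˣ, σ (g c x) = ∏ c : (ZMod p)ˣ, g (chi hζ σ * c) x :=
          Finset.prod_congr rfl fun c _ => key σ hσ c
      _ = ∏ c : (ZMod p)ˣ, g c x :=
          Equiv.prod_comp (Equiv.mulLeft (chi hζ σ)) fun c => g c x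
  have : IsGalois ℚ Qb := Fermat.Agent.S54.FrobExists.isGalois_rat_algebraicClosure
  obtain ⟨m, hm⟩ := S13.valuation_eq_zpow_of_inertia_fixed B hp.out hB hN0 hNfix
  refine ⟨m, ?_⟩
  rw [← hm, hN, map_prod]
  have hval : ∀ c : (ZMod p)ˣ, B.valuation (g c x) = B.valuation x := fun c =>
    S05.valuation_apply_eq_of_mem_inertia B (hgI c) x
  rw [Finset.prod_congr rfl fun c _ => hval c, Finset.prod_const, Finset.card_univ,
    ZMod.card_units_eq_totient, Nat.totient_prime hp.out]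

omit hp in
theorem valuation_p_pos (hp' : p.Prime) : 0 < B.valuation (p : Qb) :=
  zero_lt_iff.mpr ((Valuation.ne_zero_iff _).mpr (Nat.cast_ne_zero.mpr hp'.ne_zero))

omit hp in
include hB in
theorem valuation_p_lt_one : B.valuation (p : Qb) < 1 := (B.mem_nonunits_iff).mp hB

include hB in
/-- `n ↦ v p ^ n` is injective. -/
theorem zpow_valuation_p_injective {a b : ℤ}
    (h : B.valuation (p : Qb) ^ a = B.valuation (p : Qb) ^ b) : a = b :=
  zpow_right_injective₀ (valuation_p_pos B hp.out) (valuation_p_lt_one B hB).ne h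

include hζ hB in
/-- **Step 0** of K3Beta: if `β ^ p = p ^ n * u` with `u` a unit and `β` is fixed by `I₁`,
then `p ∣ n`. -/
theorem dvd_of_fixed {β u : Qb} {n : ℤ} (hβ : β ^ p = (p : Qb) ^ n * u) (hu : B.valuation u = 1)
    (hfix : ∀ t ∈ B.inertiaSubgroupIn ℚ, t ζ = ζ → t β = β) : (p : ℤ) ∣ n := by
  have hp0 : (p : Qb) ≠ 0 := Nat.cast_ne_zero.mpr hp.out.ne_zero
  have hu0 : u ≠ 0 := by
    rintro rfl
    rw [map_zero] at hu
    exact zero_ne_one hu
  have hβ0 : β ≠ 0 := by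
    rintro rfl
    rw [zero_pow hp.out.ne_zero] at hβ
    exact mul_ne_zero (zpow_ne_zero n hp0) hu0 hβ.symm
  obtain ⟨m, hm⟩ := exists_zpow_eq_of_fixed hζ B hB hβ0 hfix
  have hv : B.valuation β ^ p = B.valuation (p : Qb) ^ n := by
    rw [← map_pow, hβ, map_mul, map_zpow₀, hu, mul_one]
  have hvβ0 : B.valuation β ≠ 0 := (Valuation.ne_zero_iff _).mpr hβ0
  have h1 : B.valuation β = B.valuation (p : Qb) ^ (n - m) := by
    have hpp : p = (p - 1) + 1 := (Nat.succ_pred_eq_of_pos hp.out.pos).symm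
    have h2 : B.valuation β ^ (p - 1) * B.valuation β = B.valuation (p : Qb) ^ n := by
      rw [← pow_succ, ← hpp, hv]
    rw [hm] at h2
    rw [zpow_sub₀ (valuation_p_pos B hp.out).ne', ← h2, mul_comm, mul_div_assoc,
      div_self (zpow_ne_zero m (valuation_p_pos B hp.out).ne'), mul_one]
  have h3 : B.valuation (p : Qb) ^ n = B.valuation (p : Qb) ^ ((n - m) * p) := by
    rw [← hv, h1, zpow_mul, zpow_natCast]
  have h4 := zpow_valuation_p_injective B hB h3
  exact ⟨n - m, by rw [mul_comm]; exact h4⟩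

end Fermat.Agent.FF4.K3Beta
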