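import Mathlib
import Fermat.Agent.FF4.K3Beta.MfixVal

/-!
# K3Beta, leaves G2 + G3: Lagrange resolvents and the ramification bound

`a : ZMod p → ℚ̄` (the values `a(P₀ + mT)`), `ζ'` a primitive `p`-th root of unity,
`d i = p⁻¹ ∑ₘ ζ'^{-im} a m` the discrete Fourier coefficients.

* `sum_pow_mul_fourier` : Fourier inversion `∑_{i<p} ζ'^{ik} d i = a k`;
* `fourier_mul_inv_pow_fixed` (G2) : if every `s ∈ I₁` translates `a` by `k(s)` and multiplies `β`
  by `ζ'^{k(s)}`, then `d i * β⁻¹ ^ i` is fixed by `I₁`;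
* `valuation_sub_pow_le` (G3) : if `v β ^ p = v p ^ n` with `p ∤ n`, `a 0` is integral, then
  `v (a 1 - a 0) ^ (p (p-1)) ≤ v p ^ (p+1)`.
-/

set_option autoImplicit false

namespace Fermat.Agent.FF4.K3Beta

local notation "Qb" => AlgebraicClosure ℚ
local notation "GQ" => (AlgebraicClosure ℚ ≃ₐ[ℚ] AlgebraicClosure ℚ)

open Finset

variable {p : ℕ} [hp : Fact p.Prime]

/-- The discrete Fourier coefficients of `a : ZMod p → ℚ̄` with respect to `ζ'`. -/
noncomputable def fourier (ζ' : Qb) (a : ZMod p → Qb) (i : ℕ) : Qb :=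
  (p : Qb)⁻¹ * ∑ m : ZMod p, (ζ'⁻¹) ^ (i * m.val) * a m

section Inversion

variable {ζ' : Qb} (hζ' : IsPrimitiveRoot ζ' p)

omit hp in
theorem geom_sum_root {w : Qb} (hw : w ^ p = 1) :
    ∑ i ∈ range p, w ^ i = if w = 1 then (p : Qb) else 0 := by
  split_ifs with h
  · rw [h]; simp
  · have h1 : (∑ i ∈ range p, w ^ i) * (w - 1) = 0 := by rw [geom_sum_mul, hw, sub_self]
    rcases mul_eq_zero.mp h1 with h2 | h2
    · exact h2
    · exact absurd (sub_eq_zero.mp h2) h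

include hζ' in
theorem zeta_ne_zero : ζ' ≠ 0 := hζ'.ne_zero hp.out.ne_zero

include hζ' in
/-- Fourier inversion. -/
theorem sum_pow_mul_fourier (a : ZMod p → Qb) (k : ZMod p) :
    ∑ i ∈ range p, ζ' ^ (i * k.val) * fourier ζ' a i = a k := by
  classical
  have hz0 : ζ' ≠ 0 := zeta_ne_zero hζ'
  have hp0 : (p : Qb) ≠ 0 := Nat.cast_ne_zero.mpr hp.out.ne_zero
  have hinner : ∀ m : ZMod p, ∑ i ∈ range p, ζ' ^ (i * k.val) * (ζ'⁻¹) ^ (i * m.val)
      = if m = k then (p : Qb) else 0 := by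
    intro m
    have hw : (ζ' ^ k.val * (ζ'⁻¹) ^ m.val) ^ p = 1 := by
      rw [mul_pow, ← pow_mul, ← pow_mul, mul_comm k.val, mul_comm m.val, pow_mul, pow_mul,
        inv_pow, hζ'.pow_eq_one, inv_one, one_pow, one_pow, one_mul]
    have h1 : ∀ i ∈ range p, ζ' ^ (i * k.val) * (ζ'⁻¹) ^ (i * m.val)
        = (ζ' ^ k.val * (ζ'⁻¹) ^ m.val) ^ i := by
      intro i _
      rw [mul_pow, ← pow_mul, ← pow_mul, mul_comm k.val, mul_comm m.val]
    rw [sum_congr rfl h1, geom_sum_root hw]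
    have h2 : (ζ' ^ k.val * (ζ'⁻¹) ^ m.val = 1) ↔ m = k := by
      rw [inv_pow, mul_inv_eq_one₀ (pow_ne_zero _ hz0), pow_eq_pow_iff hζ',
        Nat.mod_eq_of_lt (ZMod.val_lt _), Nat.mod_eq_of_lt (ZMod.val_lt _)]
      constructor
      · intro h; exact (ZMod.val_injective p h).symm
      · intro h; rw [h]
    simp only [h2]
  have e1 : ∀ i : ℕ, ζ' ^ (i * k.val) * fourier ζ' a i
      = ∑ m : ZMod p, (p : Qb)⁻¹ * (ζ' ^ (i * k.val) * (ζ'⁻¹) ^ (i * m.val)) * a m := by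
    intro i
    unfold fourier
    rw [mul_sum, mul_sum]
    apply sum_congr rfl
    intro m _
    ring
  have e2 : ∀ m : ZMod p, ∑ i ∈ range p, (p : Qb)⁻¹ * (ζ' ^ (i * k.val) * (ζ'⁻¹) ^ (i * m.val)) * a m
      = (p : Qb)⁻¹ * (if m = k then (p : Qb) else 0) * a m := by
    intro m
    rw [← sum_mul, ← mul_sum, hinner m]
  rw [sum_congr rfl (fun i _ => e1 i), sum_comm, sum_congr rfl (fun m _ => e2 m),
    sum_eq_single k (fun m _ hm => by rw [if_neg hm, mul_zero, zero_mul])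
      (fun h => absurd (mem_univ k) h), if_pos rfl, inv_mul_cancel₀ hp0, one_mul]

end Inversion

/-! ### (G2) the twisted Fourier coefficients are fixed -/

omit hp in
theorem pow_mod_of_pow_eq_one {w : Qb} (hw : w ^ p = 1) (x : ℕ) : w ^ (x % p) = w ^ x := by
  conv_rhs => rw [← Nat.mod_add_div x p]
  rw [pow_add, pow_mul, hw, one_pow, mul_one]

theorem pow_val_add {w : Qb} (hw : w ^ p = 1) (m k : ZMod p) :
    w ^ (m + k).val = w ^ m.val * w ^ k.val := by
  rw [ZMod.val_add, pow_mod_of_pow_eq_one hw, pow_add]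

/-- **(G2)** If `s` fixes `ζ'`, translates `a` by `k` and multiplies `β` by `ζ' ^ k`, then it fixes
`fourier ζ' a i * β⁻¹ ^ i`. -/
theorem fourier_mul_inv_pow_fixed {ζ' : Qb} (hζ' : ζ' ^ p = 1) (a : ZMod p → Qb) {β : Qb}
    (s : GQ) (hs : s ζ' = ζ') (k : ZMod p) (ha : ∀ m, s (a m) = a (m + k))
    (hβ : s β = ζ' ^ k.val * β) (i : ℕ) :
    s (fourier ζ' a i * β⁻¹ ^ i) = fourier ζ' a i * β⁻¹ ^ i := by
  have hz0 : ζ' ≠ 0 := by
    rintro rfl
    rw [zero_pow hp.out.ne_zero] at hζ'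
    exact zero_ne_one hζ'
  have hinv : (ζ'⁻¹) ^ p = 1 := by rw [inv_pow, hζ', inv_one]
  have h1 : s (fourier ζ' a i) = ζ' ^ (i * k.val) * fourier ζ' a i := by
    unfold fourier
    have h2 : ∑ m : ZMod p, s ((ζ'⁻¹) ^ (i * m.val) * a m)
        = ζ' ^ (i * k.val) * ∑ m : ZMod p, (ζ'⁻¹) ^ (i * m.val) * a m := by
      rw [mul_sum, ← Equiv.sum_comp (Equiv.addRight k)
        (fun m' => ζ' ^ (i * k.val) * ((ζ'⁻¹) ^ (i * m'.val) * a m'))]
      apply sum_congr rfl
      intro m _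
      rw [map_mul, map_pow, map_inv₀, hs, ha m, Equiv.coe_addRight]
      have e : ζ' ^ (i * k.val) * (ζ'⁻¹) ^ (i * (m + k).val) = (ζ'⁻¹) ^ (i * m.val) := by
        have hk : (ζ'⁻¹) ^ (i * (m + k).val) = (ζ'⁻¹) ^ (i * m.val) * (ζ'⁻¹) ^ (i * k.val) := by
          rw [mul_comm i, pow_mul, pow_val_add hinv, mul_pow, ← pow_mul, ← pow_mul,
            mul_comm m.val, mul_comm k.val]
        have h1' : ζ' ^ (i * k.val) * (ζ'⁻¹) ^ (i * k.val) = 1 := by
          rw [← mul_pow, mul_inv_cancel₀ hz0, one_pow]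
        rw [hk, mul_comm ((ζ'⁻¹) ^ (i * m.val)), ← mul_assoc, h1', one_mul]
      rw [← mul_assoc, e]
    rw [map_mul, map_inv₀, map_natCast, map_sum, h2]
    ring
  rw [map_mul, map_pow, map_inv₀, h1, hβ, mul_inv, mul_pow, ← inv_pow, ← pow_mul, mul_comm k.val i,
    inv_pow ζ' (i * k.val)]
  field_simp

/-! ### (G3) the ramification bound -/

section Bound

variable (B : ValuationSubring Qb) (hB : B.LiesOverPrime p)

include hB in
/-- **(G3)** Let `d i` (`i < p`) be such that `d i = 0` or `v (d i) ^ (p (p-1)) = v p ^ (p m + (p-1) i n)`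
with `p ∤ n`; if `∑ d i` is integral then `v (∑ (ζ'^i - 1) d i) ^ (p (p-1)) ≤ v p ^ (p+1)`. -/
theorem valuation_sum_pow_le {ζ' : Qb} (hζ' : IsPrimitiveRoot ζ' p) {n : ℤ} (hn : ¬ (p : ℤ) ∣ n)
    (d : ℕ → Qb)
    (hd : ∀ i < p, d i = 0 ∨ ∃ m : ℤ, B.valuation (d i) ^ (p * (p - 1))
      = B.valuation (p : Qb) ^ ((p : ℤ) * m + ((p : ℤ) - 1) * i * n))
    (hint : B.valuation (∑ i ∈ range p, d i) ≤ 1) :
    B.valuation (∑ i ∈ range p, (ζ' ^ i - 1) * d i) ^ (p * (p - 1))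
      ≤ B.valuation (p : Qb) ^ (p + 1) := by
  classical
  set v := B.valuation with hv
  set w := v (p : Qb) with hw
  have hw0 : 0 < w := valuation_p_pos B hp.out
  have hw1 : w < 1 := valuation_p_lt_one B hB
  have hp2 : 2 ≤ p := hp.out.two_le
  have hN : p * (p - 1) ≠ 0 := Nat.mul_ne_zero hp.out.ne_zero (by omega)
  have hpZ : Prime (p : ℤ) := Nat.prime_iff_prime_int.mp hp.out
  -- exponents are distinct
  have hexp : ∀ i < p, ∀ i' < p, ∀ m m' : ℤ,
      (p : ℤ) * m + ((p : ℤ) - 1) * i * n = (p : ℤ) * m' + ((p : ℤ) - 1) * i' * n → i = i' := by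
    intro i hi i' hi' m m' h
    have h1 : (p : ℤ) ∣ ((i : ℤ) - i') * n := by
      refine ⟨m - m' + (i - i') * n, ?_⟩
      linear_combination -h
    rcases hpZ.dvd_or_dvd h1 with h2 | h2
    · have h3 : ((i : ℤ) - i').natAbs < p := by omega
      have h4 := Int.eq_zero_of_dvd_of_natAbs_lt_natAbs h2 (by simpa using h3)
      omega
    · exact absurd h2 hn
  -- valuations of nonzero `d i` are distinct
  have hdist : ∀ i < p, ∀ i' < p, d i ≠ 0 → d i' ≠ 0 → v (d i) = v (d i') → i = i' := by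
    intro i hi i' hi' h0 h0' h
    rcases hd i hi with h1 | ⟨m, hm⟩
    · exact absurd h1 h0
    rcases hd i' hi' with h1' | ⟨m', hm'⟩
    · exact absurd h1' h0'
    rw [h, hm'] at hm
    exact hexp i hi i' hi' m m' (zpow_valuation_p_injective B hB hm).symm
  -- all `v (d i) ≤ 1`
  have hle : ∀ i < p, v (d i) ≤ 1 := by
    by_cases hall : ∀ i ∈ range p, d i = 0
    · intro i hi
      rw [hall i (mem_range.mpr hi), map_zero]
      exact zero_le_one
    · push Not at hall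
      obtain ⟨i₀, hi₀, hi₀0⟩ := hall
      obtain ⟨j, hj, hjmax⟩ := exists_max_image (range p) (fun i => v (d i)) ⟨i₀, hi₀⟩
      have hj0 : d j ≠ 0 := by
        intro h
        have := hjmax i₀ hi₀
        rw [h, map_zero] at this
        exact hi₀0 ((Valuation.zero_iff _).mp (le_antisymm this zero_le))
      have hlt : ∀ i ∈ range p \ {j}, v (d i) < v (d j) := by
        intro i hi
        rw [mem_sdiff, mem_singleton] at hi
        rcases eq_or_ne (d i) 0 with h | h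
        · rw [h, map_zero]
          exact zero_lt_iff.mpr ((Valuation.ne_zero_iff _).mpr hj0)
        · refine lt_of_le_of_ne (hjmax i hi.1) fun heq => hi.2 ?_
          exact hdist i (mem_range.mp hi.1) j (mem_range.mp hj) h hj0 heq
      have hsum := Valuation.map_sum_eq_of_lt v hj hlt
      intro i hi
      exact (hjmax i (mem_range.mpr hi)).trans (hsum ▸ hint)
  -- for `1 ≤ i`, `v (d i) ^ N ≤ w`
  have hsmall : ∀ i < p, 1 ≤ i → v (d i) ^ (p * (p - 1)) ≤ w := by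
    intro i hi hi1
    rcases hd i hi with h | ⟨m, hm⟩
    · rw [h, map_zero, zero_pow hN]
      exact hw0.le
    · have h1 : v (d i) ^ (p * (p - 1)) ≤ 1 := pow_le_one₀ zero_le (hle i hi)
      rw [hm] at h1 ⊢
      set e : ℤ := (p : ℤ) * m + ((p : ℤ) - 1) * i * n with he
      have he0 : 0 ≤ e := by
        by_contra hneg
        push Not at hneg
        have : 1 < w ^ e := one_lt_zpow_of_neg₀ hw0 hw1 hneg
        exact absurd h1 (not_le.mpr this)
      have hene : e ≠ 0 := by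
        intro h0
        have h2 : (p : ℤ) ∣ (i : ℤ) * n := by
          refine ⟨m + i * n, ?_⟩
          linear_combination -h0 - he
        rcases hpZ.dvd_or_dvd h2 with h3 | h3
        · have := Int.le_of_dvd (by exact_mod_cast hi1) h3
          omega
        · exact hn h3
      have he1 : 1 ≤ e := by omega
      calc w ^ e ≤ w ^ (1 : ℤ) := zpow_le_zpow_right_of_le_one₀ hw0 hw1.le he1
        _ = w := zpow_one w
  -- the dominating term
  obtain ⟨i₁, hi₁, hmax⟩ := exists_max_image (range p) (fun i => v ((ζ' ^ i - 1) * d i))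
    ⟨0, mem_range.mpr hp.out.pos⟩
  have hsumle : v (∑ i ∈ range p, (ζ' ^ i - 1) * d i) ≤ v ((ζ' ^ i₁ - 1) * d i₁) :=
    Valuation.map_sum_le v fun i hi => hmax i hi
  refine (pow_le_pow_left₀ zero_le hsumle _).trans ?_
  rcases Nat.eq_zero_or_pos i₁ with h0 | hpos
  · rw [h0, pow_zero, sub_self, zero_mul, map_zero, zero_pow hN]
    exact (pow_pos hw0 _).le
  · have hi₁p : i₁ < p := mem_range.mp hi₁
    have hnd : ¬ p ∣ i₁ := fun h => by
      have := Nat.le_of_dvd hpos h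
      omega
    have hπ : v (ζ' ^ i₁ - 1) = v (ζ' - 1) := BR3.WildCyclo.valuation_pow_sub_one hp.out hζ' B hnd
    have hπp : v (ζ' - 1) ^ (p - 1) = w := BR3.WildCyclo.valuation_sub_one_pow hp.out hζ' B
    rw [map_mul, mul_pow, hπ, mul_comm p (p - 1), pow_mul, hπp, pow_succ]
    rw [mul_comm (p - 1) p]
    exact mul_le_mul' le_rfl (hsmall i₁ hi₁p hpos)

include hB in
/-- **(G3′)** Variant without integrality: if the sum `∑ (ζ'^i - 1) d i` is nonzero then its
valuation to the `p (p-1)` is `v p ^ e` with `p ∤ e`; in particular it is not the valuation of an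
`I₁`-fixed element. -/
theorem exists_valuation_sum_pow_eq {ζ' : Qb} (hζ' : IsPrimitiveRoot ζ' p) {n : ℤ}
    (hn : ¬ (p : ℤ) ∣ n) (d : ℕ → Qb)
    (hd : ∀ i < p, d i = 0 ∨ ∃ m : ℤ, B.valuation (d i) ^ (p * (p - 1))
      = B.valuation (p : Qb) ^ ((p : ℤ) * m + ((p : ℤ) - 1) * i * n))
    (hne : ∑ i ∈ range p, (ζ' ^ i - 1) * d i ≠ 0) :
    ∃ e : ℤ, ¬ (p : ℤ) ∣ e ∧ B.valuation (∑ i ∈ range p, (ζ' ^ i - 1) * d i) ^ (p * (p - 1))
      = B.valuation (p : Qb) ^ e := by
  classical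
  set v := B.valuation with hv
  set w := v (p : Qb) with hw
  have hw0 : 0 < w := valuation_p_pos B hp.out
  have hp2 : 2 ≤ p := hp.out.two_le
  have hpZ : Prime (p : ℤ) := Nat.prime_iff_prime_int.mp hp.out
  have hπp : v (ζ' - 1) ^ (p - 1) = w := BR3.WildCyclo.valuation_sub_one_pow hp.out hζ' B
  -- the terms
  set f : ℕ → Qb := fun i => (ζ' ^ i - 1) * d i with hf
  have hf0 : f 0 = 0 := by simp [hf]
  -- valuation of a nonzero term
  have hterm : ∀ i < p, f i ≠ 0 → 1 ≤ i ∧ ∃ m : ℤ, v (f i) ^ (p * (p - 1))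
      = w ^ ((p : ℤ) * (m + 1) + ((p : ℤ) - 1) * i * n) := by
    intro i hi hfi
    have hi1 : 1 ≤ i := by
      rcases Nat.eq_zero_or_pos i with h | h
      · rw [h] at hfi; exact absurd hf0 hfi
      · exact h
    refine ⟨hi1, ?_⟩
    have hdi : d i ≠ 0 := fun h => hfi (by simp [hf, h])
    rcases hd i hi with h | ⟨m, hm⟩
    · exact absurd h hdi
    refine ⟨m, ?_⟩
    have hnd : ¬ p ∣ i := fun h => by
      have := Nat.le_of_dvd hi1 h
      omega
    have hπ : v (ζ' ^ i - 1) = v (ζ' - 1) := BR3.WildCyclo.valuation_pow_sub_one hp.out hζ' B hnd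
    rw [hf]
    simp only
    rw [map_mul, mul_pow, hπ, hm, mul_comm p (p - 1), pow_mul, hπp, ← zpow_natCast w p,
      ← zpow_add₀ hw0.ne']
    congr 1
    ring
  -- distinct valuations
  have hdist : ∀ i < p, ∀ i' < p, f i ≠ 0 → f i' ≠ 0 → v (f i) = v (f i') → i = i' := by
    intro i hi i' hi' h0 h0' h
    obtain ⟨-, m, hm⟩ := hterm i hi h0
    obtain ⟨-, m', hm'⟩ := hterm i' hi' h0'
    rw [h, hm'] at hm
    have h1 := (zpow_valuation_p_injective B hB hm).symm
    have h2 : (p : ℤ) ∣ ((i : ℤ) - i') * n := by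
      refine ⟨m - m' + (i - i') * n, ?_⟩
      linear_combination -h1
    rcases hpZ.dvd_or_dvd h2 with h3 | h3
    · have h4 : ((i : ℤ) - i').natAbs < p := by omega
      have h5 := Int.eq_zero_of_dvd_of_natAbs_lt_natAbs h3 (by simpa using h4)
      omega
    · exact absurd h3 hn
  -- a nonzero term exists; take the maximal one
  have hex : ∃ i ∈ range p, f i ≠ 0 := by
    by_contra hall
    push Not at hall
    exact hne (sum_eq_zero hall)
  obtain ⟨i₀, hi₀, hi₀0⟩ := hex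
  obtain ⟨j, hj, hjmax⟩ := exists_max_image (range p) (fun i => v (f i)) ⟨i₀, hi₀⟩
  have hj0 : f j ≠ 0 := by
    intro h
    have := hjmax i₀ hi₀
    simp only [h, map_zero] at this
    exact hi₀0 ((Valuation.zero_iff _).mp (le_antisymm this zero_le))
  have hlt : ∀ i ∈ range p \ {j}, v (f i) < v (f j) := by
    intro i hi
    rw [mem_sdiff, mem_singleton] at hi
    rcases eq_or_ne (f i) 0 with h | h
    · rw [h, map_zero]
      exact zero_lt_iff.mpr ((Valuation.ne_zero_iff _).mpr hj0)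
    · refine lt_of_le_of_ne (hjmax i hi.1) fun heq => hi.2 ?_
      exact hdist i (mem_range.mp hi.1) j (mem_range.mp hj) h hj0 heq
  have hsum : v (∑ i ∈ range p, f i) = v (f j) := Valuation.map_sum_eq_of_lt v hj hlt
  obtain ⟨hj1, m, hm⟩ := hterm j (mem_range.mp hj) hj0
  refine ⟨(p : ℤ) * (m + 1) + ((p : ℤ) - 1) * j * n, ?_, ?_⟩
  · intro hdvd
    have h2 : (p : ℤ) ∣ (j : ℤ) * n := by
      obtain ⟨c, hc⟩ := hdvd
      refine ⟨m + 1 + j * n - c, ?_⟩
      linear_combination -hc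
    rcases hpZ.dvd_or_dvd h2 with h3 | h3
    · have := Int.le_of_dvd (by exact_mod_cast hj1) h3
      have := mem_range.mp hj
      omega
    · exact hn h3
  · show v (∑ i ∈ range p, f i) ^ (p * (p - 1)) = _
    rw [hsum, hm]

end Bound

/-! ### (G2) + (G3) combined -/

section Combined

variable (B : ValuationSubring Qb) (hB : B.LiesOverPrime p)

include hB in
/-- the valuation of the Fourier coefficients, from the `I₁`-invariance of the twisted ones. -/
theorem fourier_valuation_cases {ζ ζ' : Qb} (hζ : IsPrimitiveRoot ζ p)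
    {n : ℤ} {β : Qb} (hβ0 : β ≠ 0)
    (hβ : B.valuation β ^ p = B.valuation (p : Qb) ^ n) (a : ZMod p → Qb)
    (hfixed : ∀ i < p, ∀ t ∈ B.inertiaSubgroupIn ℚ, t ζ = ζ →
      t (fourier ζ' a i * β⁻¹ ^ i) = fourier ζ' a i * β⁻¹ ^ i) :
    ∀ i < p, fourier ζ' a i = 0 ∨ ∃ m : ℤ, B.valuation (fourier ζ' a i) ^ (p * (p - 1))
      = B.valuation (p : Qb) ^ ((p : ℤ) * m + ((p : ℤ) - 1) * i * n) := by
  have hw0 : B.valuation (p : Qb) ≠ 0 := (valuation_p_pos B hp.out).ne'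
  intro i hi
  rcases eq_or_ne (fourier ζ' a i) 0 with h | h
  · exact Or.inl h
  · right
    have hc0 : fourier ζ' a i * β⁻¹ ^ i ≠ 0 := mul_ne_zero h (pow_ne_zero _ (inv_ne_zero hβ0))
    obtain ⟨m, hm⟩ := exists_zpow_eq_of_fixed hζ B hB hc0 (hfixed i hi)
    refine ⟨m, ?_⟩
    have hvβ0 : B.valuation β ≠ 0 := (Valuation.ne_zero_iff _).mpr hβ0
    have hd : B.valuation (fourier ζ' a i)
        = B.valuation (fourier ζ' a i * β⁻¹ ^ i) * B.valuation β ^ i := by
      rw [map_mul, map_pow, map_inv₀, mul_assoc, ← mul_pow, inv_mul_cancel₀ hvβ0, one_pow, mul_one]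
    have hpp : ((p - 1 : ℕ) : ℤ) = (p : ℤ) - 1 := by
      rw [Nat.cast_sub hp.out.one_le, Nat.cast_one]
    calc B.valuation (fourier ζ' a i) ^ (p * (p - 1))
        = (B.valuation (fourier ζ' a i * β⁻¹ ^ i) ^ (p - 1)) ^ p
            * (B.valuation β ^ p) ^ ((p - 1) * i) := by
          rw [hd, mul_pow, ← pow_mul, ← pow_mul, ← pow_mul]
          congr 2 <;> ring
      _ = B.valuation (p : Qb) ^ ((p : ℤ) * m + ((p : ℤ) - 1) * i * n) := by
          rw [hm, hβ, ← zpow_natCast, ← zpow_mul, ← zpow_natCast (B.valuation (p : Qb) ^ n),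
            ← zpow_mul, ← zpow_add₀ hw0]
          congr 1
          push_cast
          rw [hpp]
          ring

include hB in
/-- **(G2)+(G3)**: if the twisted Fourier coefficients of `a` are fixed by `I₁`,
`v β ^ p = v p ^ n` with `p ∤ n`, and `a 0` is integral, then
`v (a 1 - a 0) ^ (p (p-1)) ≤ v p ^ (p+1)`. -/
theorem valuation_sub_pow_le {ζ ζ' : Qb} (hζ : IsPrimitiveRoot ζ p) (hζ' : IsPrimitiveRoot ζ' p)
    {n : ℤ} (hn : ¬ (p : ℤ) ∣ n) {β : Qb} (hβ0 : β ≠ 0)
    (hβ : B.valuation β ^ p = B.valuation (p : Qb) ^ n) (a : ZMod p → Qb)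
    (hfixed : ∀ i < p, ∀ t ∈ B.inertiaSubgroupIn ℚ, t ζ = ζ →
      t (fourier ζ' a i * β⁻¹ ^ i) = fourier ζ' a i * β⁻¹ ^ i)
    (hint : B.valuation (a 0) ≤ 1) :
    B.valuation (a 1 - a 0) ^ (p * (p - 1)) ≤ B.valuation (p : Qb) ^ (p + 1) := by
  have hw0 : B.valuation (p : Qb) ≠ 0 := (valuation_p_pos B hp.out).ne'
  have h0 : ∑ i ∈ range p, fourier ζ' a i = a 0 := by
    have := sum_pow_mul_fourier hζ' a 0
    simpa using this
  have h1 : ∑ i ∈ range p, ζ' ^ i * fourier ζ' a i = a 1 := by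
    have := sum_pow_mul_fourier hζ' a 1
    simpa [ZMod.val_one] using this
  have hsub : a 1 - a 0 = ∑ i ∈ range p, (ζ' ^ i - 1) * fourier ζ' a i := by
    rw [← h0, ← h1, ← sum_sub_distrib]
    apply sum_congr rfl
    intro i _
    ring
  rw [hsub]
  refine valuation_sum_pow_le B hB hζ' hn (fourier ζ' a) ?_ (h0 ▸ hint)
  intro i hi
  rcases eq_or_ne (fourier ζ' a i) 0 with h | h
  · exact Or.inl h
  · right
    have hc0 : fourier ζ' a i * β⁻¹ ^ i ≠ 0 := mul_ne_zero h (pow_ne_zero _ (inv_ne_zero hβ0))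
    obtain ⟨m, hm⟩ := exists_zpow_eq_of_fixed hζ B hB hc0 (hfixed i hi)
    refine ⟨m, ?_⟩
    have hvβ0 : B.valuation β ≠ 0 := (Valuation.ne_zero_iff _).mpr hβ0
    have hd : B.valuation (fourier ζ' a i)
        = B.valuation (fourier ζ' a i * β⁻¹ ^ i) * B.valuation β ^ i := by
      rw [map_mul, map_pow, map_inv₀, mul_assoc, ← mul_pow, inv_mul_cancel₀ hvβ0, one_pow, mul_one]
    have hpp : ((p - 1 : ℕ) : ℤ) = (p : ℤ) - 1 := by
      rw [Nat.cast_sub hp.out.one_le, Nat.cast_one]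
    calc B.valuation (fourier ζ' a i) ^ (p * (p - 1))
        = (B.valuation (fourier ζ' a i * β⁻¹ ^ i) ^ (p - 1)) ^ p
            * (B.valuation β ^ p) ^ ((p - 1) * i) := by
          rw [hd, mul_pow, ← pow_mul, ← pow_mul, ← pow_mul]
          congr 2 <;> ring
      _ = B.valuation (p : Qb) ^ ((p : ℤ) * m + ((p : ℤ) - 1) * i * n) := by
          rw [hm, hβ, ← zpow_natCast, ← zpow_mul, ← zpow_natCast (B.valuation (p : Qb) ^ n),
            ← zpow_mul, ← zpow_add₀ hw0]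
          congr 1
          push_cast
          rw [hpp]
          ring

include hB in
/-- **(G2)+(G3′)**: same hypotheses without integrality: if `a 1 ≠ a 0` then
`v (a 1 - a 0) ^ (p (p-1)) = v p ^ e` with `p ∤ e`. -/
theorem exists_valuation_sub_pow_eq {ζ ζ' : Qb} (hζ : IsPrimitiveRoot ζ p)
    (hζ' : IsPrimitiveRoot ζ' p)
    {n : ℤ} (hn : ¬ (p : ℤ) ∣ n) {β : Qb} (hβ0 : β ≠ 0)
    (hβ : B.valuation β ^ p = B.valuation (p : Qb) ^ n) (a : ZMod p → Qb)
    (hfixed : ∀ i < p, ∀ t ∈ B.inertiaSubgroupIn ℚ, t ζ = ζ →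
      t (fourier ζ' a i * β⁻¹ ^ i) = fourier ζ' a i * β⁻¹ ^ i)
    (hne : a 1 ≠ a 0) :
    ∃ e : ℤ, ¬ (p : ℤ) ∣ e ∧
      B.valuation (a 1 - a 0) ^ (p * (p - 1)) = B.valuation (p : Qb) ^ e := by
  have hw0 : B.valuation (p : Qb) ≠ 0 := (valuation_p_pos B hp.out).ne'
  have h0 : ∑ i ∈ range p, fourier ζ' a i = a 0 := by
    have := sum_pow_mul_fourier hζ' a 0
    simpa using this
  have h1 : ∑ i ∈ range p, ζ' ^ i * fourier ζ' a i = a 1 := by
    have := sum_pow_mul_fourier hζ' a 1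
    simpa [ZMod.val_one] using this
  have hsub : a 1 - a 0 = ∑ i ∈ range p, (ζ' ^ i - 1) * fourier ζ' a i := by
    rw [← h0, ← h1, ← sum_sub_distrib]
    apply sum_congr rfl
    intro i _
    ring
  rw [hsub]
  refine exists_valuation_sum_pow_eq B hB hζ' hn (fourier ζ' a)
    (fourier_valuation_cases B hB hζ hβ0 hβ a hfixed) ?_
  rw [← hsub]
  exact sub_ne_zero.mpr hne

end Combined

end Fermat.Agent.FF4.K3Beta
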