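import Mathlib
import Fermat.Agent.FF4.K3Beta.MfixVal

/-!
# K3Beta, leaf F2: the tame-character trick

`z ≠ 0` fixed by `I₁`, in the maximal ideal, with `v p * v z ≤ v z ^ 2` (weak torsion bound) and
`g z ≡ c z` modulo `z ^ 2` for every `g ∈ I` with `g ζ = ζ ^ c` (the inertia group acts on `z`
through the cyclotomic character up to second order terms).  Then `v z ^ (p - 1) = v p`, i.e. `z`
has exactly the valuation of `ζ - 1`.

This replaces the `[p]`-series/Newton polygon of the formal group in the proof of K3Beta.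
-/

set_option autoImplicit false

namespace Fermat.Agent.FF4.K3Beta

local notation "Qb" => AlgebraicClosure ℚ
local notation "GQ" => (AlgebraicClosure ℚ ≃ₐ[ℚ] AlgebraicClosure ℚ)

open Finset

variable {p : ℕ} [hp : Fact p.Prime]

/-- If `u ^ k = u` for all units `u` of `ZMod p` and `1 ≤ k ≤ p - 1` then `k = 1`. -/
theorem eq_one_of_forall_units_pow_eq {k : ℕ} (hk1 : 1 ≤ k) (hkp : k ≤ p - 1)
    (h : ∀ u : (ZMod p)ˣ, u ^ k = u) : k = 1 := by
  obtain ⟨g, hg⟩ := IsCyclic.exists_generator (α := (ZMod p)ˣ)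
  have hord : orderOf g = p - 1 := by
    rw [orderOf_eq_card_of_forall_mem_zpowers hg, Nat.card_eq_fintype_card,
      ZMod.card_units_eq_totient, Nat.totient_prime hp.out]
  have h1 : g ^ (k - 1) = 1 := by
    have h2 : g ^ (k - 1) * g = 1 * g := by
      rw [← pow_succ, Nat.sub_add_cancel hk1, h g, one_mul]
    exact mul_right_cancel h2
  have h3 : p - 1 ∣ k - 1 := hord ▸ orderOf_dvd_of_pow_eq_one h1
  have h4 : k - 1 = 0 := Nat.eq_zero_of_dvd_of_lt h3 (by omega)
  omega

variable (B : ValuationSubring Qb) (hB : B.LiesOverPrime p)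

include hB in
/-- **(F2) The tame-character trick.** -/
theorem valuation_pow_pred_eq_of_tame {ζ : Qb} (hζ : IsPrimitiveRoot ζ p)
    {z : Qb} (hz0 : z ≠ 0) (hz1 : B.valuation z < 1)
    (hzp : B.valuation (p : Qb) * B.valuation z ≤ B.valuation z ^ 2)
    (hfix : ∀ t ∈ B.inertiaSubgroupIn ℚ, t ζ = ζ → t z = z)
    (htame : ∀ g ∈ B.inertiaSubgroupIn ℚ, ∀ c : ℕ, g ζ = ζ ^ c →
      B.valuation (g z - c * z) ≤ B.valuation z ^ 2) :
    B.valuation z ^ (p - 1) = B.valuation (p : Qb) := by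
  classical
  set v := B.valuation with hv
  set w := v (p : Qb) with hw
  have hw0 : 0 < w := valuation_p_pos B hp.out
  have hw1 : w < 1 := valuation_p_lt_one B hB
  have hp2 : 2 ≤ p := hp.out.two_le
  have hN : p - 1 ≠ 0 := by omega
  have hvz0 : 0 < v z := zero_lt_iff.mpr ((Valuation.ne_zero_iff _).mpr hz0)
  -- the valuation of `ζ - 1`
  have hπp : v (ζ - 1) ^ (p - 1) = w := BR3.WildCyclo.valuation_sub_one_pow hp.out hζ B
  have hζ1 : ζ - 1 ≠ 0 := sub_ne_zero.mpr (hζ.ne_one hp.out.one_lt)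
  have hπ0 : 0 < v (ζ - 1) := zero_lt_iff.mpr ((Valuation.ne_zero_iff _).mpr hζ1)
  have hπ1 : v (ζ - 1) < 1 := by
    by_contra h
    push Not at h
    have : 1 ≤ v (ζ - 1) ^ (p - 1) := one_le_pow₀ h
    rw [hπp] at this
    exact absurd hw1 (not_lt.mpr this)
  have hζB : ζ ∈ B := by simpa using BR3.WildCyclo.zeta_pow_mem hp.out hζ B 1
  -- G1
  obtain ⟨m, hm⟩ := exists_zpow_eq_of_fixed hζ B hB hz0 hfix
  have hwz : w ≤ v z := by
    rw [pow_two] at hzp
    exact le_of_mul_le_mul_right hzp hvz0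
  have hm1 : 1 ≤ m := by
    by_contra h
    push Not at h
    have h0 : m ≤ 0 := by omega
    have h1 : 1 ≤ w ^ m := one_le_zpow_of_nonpos₀ hw0 hw1.le h0
    have h2 : v z ^ (p - 1) < 1 := pow_lt_one₀ zero_le hz1 hN
    rw [hm] at h2
    exact absurd h1 (not_le.mpr h2)
  have hmN : m ≤ ((p - 1 : ℕ) : ℤ) := by
    by_contra h
    push Not at h
    have h1 : w ^ m < w ^ (((p - 1 : ℕ) : ℤ)) := zpow_lt_zpow_right_of_lt_one₀ hw0 hw1 h
    have h2 : w ^ (p - 1) ≤ v z ^ (p - 1) := pow_le_pow_left₀ zero_le hwz _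
    rw [hm, ← zpow_natCast] at h2
    exact absurd h1 (not_lt.mpr h2)
  obtain ⟨k, rfl⟩ : ∃ k : ℕ, m = k := ⟨m.toNat, (Int.toNat_of_nonneg (by omega)).symm⟩
  have hk1 : 1 ≤ k := by exact_mod_cast hm1
  have hkN : k ≤ p - 1 := by exact_mod_cast hmN
  rw [zpow_natCast] at hm
  change v z ^ (p - 1) = w ^ k at hm
  -- `v z = v (ζ - 1) ^ k`
  have hvz : v z = v (ζ - 1) ^ k := by
    apply (pow_left_inj₀ zero_le zero_le hN).mp
    rw [hm, ← hπp, ← pow_mul, ← pow_mul, mul_comm]
  -- the unit part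
  set ε : Qb := z / (ζ - 1) ^ k with hε
  have hzε : z = (ζ - 1) ^ k * ε := by
    rw [hε, mul_div_cancel₀ _ (pow_ne_zero k hζ1)]
  have hvε : v ε = 1 := by
    rw [hε, map_div₀, map_pow, ← hvz, div_self hvz0.ne']
  -- the congruences `c ^ k ≡ c`
  have hcong : ∀ u : (ZMod p)ˣ, u ^ k = u := by
    intro u
    set c : ℕ := ((u : (ZMod p)ˣ) : ZMod p).val with hc
    obtain ⟨g, hgI, hgχ⟩ := exists_inertia_chi_eq hζ B hB u
    have hgζ : g ζ = ζ ^ c := by rw [chi_spec hζ g, hgχ]
    by_contra hne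
    -- `p ∤ c ^ k - c`
    have hnd : ¬ (p : ℤ) ∣ (c : ℤ) ^ k - c := by
      intro hdvd
      apply hne
      have h1 : (((c : ℤ) ^ k - c : ℤ) : ZMod p) = 0 :=
        (ZMod.intCast_zmod_eq_zero_iff_dvd _ p).mpr hdvd
      push_cast at h1
      rw [hc, ZMod.natCast_zmod_val, sub_eq_zero] at h1
      exact Units.ext (by rw [Units.val_pow_eq_pow_val]; exact h1)
    have hunit : v (((c : ℤ) ^ k - c : ℤ) : Qb) = 1 := S05.val_intCast_eq_one B hp.out hB hnd
    -- the geometric sum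
    set S : Qb := ∑ i ∈ range c, ζ ^ i with hS
    have hSmul : ζ ^ c - 1 = S * (ζ - 1) := (geom_sum_mul ζ c).symm
    have hSle : v S ≤ 1 := by
      rw [B.valuation_le_one_iff]
      exact B.toSubring.sum_mem fun i _ => pow_mem hζB i
    have hSc : v (S - c) < 1 := by
      have e : S - c = ∑ i ∈ range c, (ζ ^ i - 1) := by
        rw [sum_sub_distrib, hS]
        simp
      rw [e]
      refine Valuation.map_sum_lt v one_ne_zero fun i _ => ?_
      exact (BR3.WildCyclo.valuation_pow_sub_one_le B hζB i).trans_lt hπ1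
    have hcle : v (c : Qb) ≤ 1 := S05.valuation_natCast_le_one B c
    have hSk : v (S ^ k - (c : Qb) ^ k) < 1 := by
      rw [← geom_sum₂_mul, map_mul]
      have h1 : v (∑ i ∈ range k, S ^ i * (c : Qb) ^ (k - 1 - i)) ≤ 1 := by
        refine Valuation.map_sum_le v fun i _ => ?_
        rw [map_mul, map_pow, map_pow]
        exact mul_le_one' (pow_le_one₀ zero_le hSle) (pow_le_one₀ zero_le hcle)
      calc v (∑ i ∈ range k, S ^ i * (c : Qb) ^ (k - 1 - i)) * v (S - c)
          ≤ 1 * v (S - c) := mul_le_mul_left h1 _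
        _ = v (S - c) := one_mul _
        _ < 1 := hSc
    have hgε : v (g ε - ε) < 1 := S05.inertia_sub_lt_one B hgI hvε.le
    -- `g z - c z = (ζ - 1) ^ k * E`
    set E : Qb := S ^ k * g ε - c * ε with hE
    have hgz : g z - c * z = (ζ - 1) ^ k * E := by
      rw [hzε, map_mul, map_pow, map_sub, map_one, hgζ, hSmul, mul_pow, hE]
      ring
    have hEdec : E = (S ^ k * (g ε - ε) + (S ^ k - (c : Qb) ^ k) * ε)
        + (((c : ℤ) ^ k - c : ℤ) : Qb) * ε := by
      rw [hE]
      push_cast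
      ring
    have hsmall : v (S ^ k * (g ε - ε) + (S ^ k - (c : Qb) ^ k) * ε) < 1 := by
      refine Valuation.map_add_lt v ?_ ?_
      · rw [map_mul, map_pow]
        calc v S ^ k * v (g ε - ε) ≤ 1 * v (g ε - ε) :=
              mul_le_mul_left (pow_le_one₀ zero_le hSle) _
          _ = v (g ε - ε) := one_mul _
          _ < 1 := hgε
      · rw [map_mul, hvε, mul_one]
        exact hSk
    have hvE : v E = 1 := by
      rw [hEdec]
      have h1 : v ((((c : ℤ) ^ k - c : ℤ) : Qb) * ε) = 1 := by rw [map_mul, hunit, hvε, one_mul]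
      rw [Valuation.map_add_eq_of_lt_right v (by rw [h1]; exact hsmall), h1]
    have h1 : v (g z - c * z) = v z := by rw [hgz, map_mul, map_pow, hvE, mul_one, hvz]
    have h2 := htame g hgI c hgζ
    rw [h1, pow_two] at h2
    have h3 : v z * v z < v z * 1 := mul_lt_mul_of_pos_left hz1 hvz0
    rw [mul_one] at h3
    exact absurd h2 (not_le.mpr h3)
  have hk : k = 1 := eq_one_of_forall_units_pow_eq hk1 hkN hcong
  rw [hm, hk, pow_one]

end Fermat.Agent.FF4.K3Beta
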