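import Mathlib
import Fermat.Prelude.Def_FLTPrelim_Ramification
import Fermat.Agent.S05.Frey
import Fermat.Agent.FF4.K3Beta.MfixVal
import Fermat.Agent.FF4.K3Beta.Resolvent
import Fermat.Agent.FF4.K3Beta.TameChar
import Fermat.Agent.FF4.K3Beta.Curve

/-!
# K3Beta: the core lemma (curve-agnostic)

`W'` a Weierstrass curve over `ℚ`, `B` a valuation subring of `ℚ̄` over the odd prime `p` at which
`W'` has integral coefficients.  `Q₀` a point in the kernel of reduction, or integral with a unit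
partial derivative; `T₀` a `p`-torsion point; the inertia group `I` moves `Q₀` inside `Q₀ + ℤ T₀`
and acts on `T₀` through the cyclotomic character; `β ^ p = p ^ n * u` with `u` a unit fixed by
`I₁`, and every element of `I₁` fixing `Q₀` fixes `β`.  Then `p ∣ n`.
-/

set_option autoImplicit false

namespace Fermat.Agent.FF4.K3Beta

open WeierstrassCurve WeierstrassCurve.Affine WeierstrassCurve.Affine.Point
open scoped WeierstrassCurve.Affine
open Fermat.Agent.S05 Fermat.Agent.S05.Kernel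

local notation "Qb" => AlgebraicClosure ℚ
local notation "GQ" => (AlgebraicClosure ℚ ≃ₐ[ℚ] AlgebraicClosure ℚ)

/-! ### The Galois action on points -/

section Action

variable {W' : WeierstrassCurve ℚ}

theorem smul_nsmul_pt (g : GQ) (c : ℕ) (P : (W'⁄Qb).Point) : g • (c • P) = c • (g • P) :=
  map_nsmul (Point.map (W' := W') g.toAlgHom) c P

theorem smul_zsmul_pt (g : GQ) (c : ℤ) (P : (W'⁄Qb).Point) : g • (c • P) = c • (g • P) :=
  algEquiv_smul_zsmul g c P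

theorem smul_add_pt (g : GQ) (P Q : (W'⁄Qb).Point) : g • (P + Q) = g • P + g • Q :=
  map_add (Point.map (W' := W') g.toAlgHom) P Q

theorem smul_sub_pt (g : GQ) (P Q : (W'⁄Qb).Point) : g • (P - Q) = g • P - g • Q :=
  map_sub (Point.map (W' := W') g.toAlgHom) P Q

theorem smul_neg_pt (g : GQ) (P : (W'⁄Qb).Point) : g • (-P) = -(g • P) :=
  map_neg (Point.map (W' := W') g.toAlgHom) P

theorem smul_zero_pt (g : GQ) : g • (0 : (W'⁄Qb).Point) = 0 :=
  map_zero (Point.map (W' := W') g.toAlgHom)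

variable {p : ℕ} [hp : Fact p.Prime]

omit hp in
theorem mod_nsmul_pt {T : (W'⁄Qb).Point} (hpT : p • T = 0) (x : ℕ) : (x % p) • T = x • T := by
  conv_rhs => rw [← Nat.mod_add_div x p]
  rw [add_nsmul, mul_comm, mul_nsmul', hpT, nsmul_zero, add_zero]

theorem val_add_nsmul_pt {T : (W'⁄Qb).Point} (hpT : p • T = 0) (m k : ZMod p) :
    (m + k).val • T = m.val • T + k.val • T := by
  rw [ZMod.val_add, mod_nsmul_pt hpT, add_nsmul]

theorem val_mul_nsmul_pt {T : (W'⁄Qb).Point} (hpT : p • T = 0) (m k : ZMod p) :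
    (m * k).val • T = (m.val * k.val) • T := by
  rw [ZMod.val_mul, mod_nsmul_pt hpT]

theorem val_natCast_nsmul_pt {T : (W'⁄Qb).Point} (hpT : p • T = 0) (c : ℕ) :
    ((c : ZMod p).val) • T = c • T := by
  rw [ZMod.val_natCast, mod_nsmul_pt hpT]

theorem val_intCast_nsmul_pt {T : (W'⁄Qb).Point} (hpT : p • T = 0) (c : ℤ) :
    ((c : ZMod p).val) • T = c • T := by
  have h1 : (((c : ZMod p).val : ℤ)) % p = c % p := by
    rw [ZMod.val_intCast]
    exact Int.emod_emod_of_dvd c dvd_rfl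
  have h2 : ∀ a : ℤ, a • T = (a % p) • T := by
    intro a
    conv_lhs => rw [← Int.emod_add_mul_ediv a p]
    rw [add_zsmul, mul_comm, mul_zsmul, natCast_zsmul, hpT, zsmul_zero, add_zero]
  rw [← natCast_zsmul, h2, h1, ← h2]

end Action

/-! ### Step A: the root of unity `t β / β` -/

section StepA

variable {p : ℕ} [hp : Fact p.Prime] {ζ : Qb} (hζ : IsPrimitiveRoot ζ p)

include hζ in
/-- If `t` fixes `ζ` and `β ^ p` but moves `β`, then `t β = ζ' β` with `ζ'` a primitive `p`-th root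
of unity, a power of `ζ`. -/
theorem exists_root_of_moved {β : Qb} {t : GQ} (hβp : t (β ^ p) = β ^ p) (hβ0 : β ≠ 0)
    (hmove : t β ≠ β) :
    ∃ ζ' : Qb, IsPrimitiveRoot ζ' p ∧ t β = ζ' * β ∧ ∀ s : GQ, s ζ = ζ → s ζ' = ζ' := by
  set ζ' : Qb := t β / β with hζ'
  have h1 : ζ' ^ p = 1 := by
    rw [hζ', div_pow, ← map_pow, hβp, div_self (pow_ne_zero _ hβ0)]
  have h2 : ζ' ≠ 1 := by
    intro h
    rw [hζ', div_eq_one_iff_eq hβ0] at h
    exact hmove h
  obtain ⟨i, hip, hi⟩ := hζ.eq_pow_of_pow_eq_one h1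
  have hi0 : i ≠ 0 := by
    rintro rfl
    rw [pow_zero] at hi
    exact h2 hi.symm
  have hcop : Nat.Coprime i p := by
    rw [Nat.coprime_comm]
    exact (Nat.Prime.coprime_iff_not_dvd hp.out).mpr fun hdvd =>
      absurd (Nat.le_of_dvd (Nat.pos_of_ne_zero hi0) hdvd) (not_le.mpr hip)
  refine ⟨ζ', hi ▸ hζ.pow_of_coprime i hcop, ?_, ?_⟩
  · rw [hζ', div_mul_cancel₀ _ hβ0]
  · intro s hs
    rw [← hi, map_pow, hs]

end StepA

/-! ### Step B: the structure of the orbit of `Q₀` -/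

section StepB

variable {W' : WeierstrassCurve ℚ} {p : ℕ} [hp : Fact p.Prime]
variable (B : ValuationSubring Qb)

/-- From (S1″): every `g ∈ I` moves `Q₀` by a multiple of `T = t Q₀ - Q₀`. -/
theorem exists_translate {Q₀ T₀ : (W'⁄Qb).Point} (hT₀ : p • T₀ = 0)
    (hS1 : ∀ g ∈ B.inertiaSubgroupIn ℚ, ∃ k : ℤ, g • Q₀ - Q₀ = k • T₀)
    {t : GQ} (ht : t ∈ B.inertiaSubgroupIn ℚ) (hmove : t • Q₀ ≠ Q₀) :
    p • (t • Q₀ - Q₀) = 0 ∧
      ∀ g ∈ B.inertiaSubgroupIn ℚ, ∃ b : ZMod p, g • Q₀ = Q₀ + b.val • (t • Q₀ - Q₀) := by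
  set T := t • Q₀ - Q₀ with hT
  obtain ⟨k₀, hk₀⟩ := hS1 t ht
  change T = k₀ • T₀ at hk₀
  have hT0 : T ≠ 0 := fun h => hmove (sub_eq_zero.mp h)
  have hpT₀' : (p : ℤ) • T₀ = 0 := by rw [natCast_zsmul, hT₀]
  have hpT : p • T = 0 := by
    rw [hk₀, ← natCast_zsmul, smul_comm, hpT₀', zsmul_zero]
  have hk₀p : ¬ (p : ℤ) ∣ k₀ := by
    rintro ⟨q, rfl⟩
    apply hT0
    rw [hk₀, mul_comm, mul_zsmul, hpT₀', zsmul_zero]
  -- an inverse of `k₀` modulo `p`
  have hk₀Z : (k₀ : ZMod p) ≠ 0 := by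
    rwa [Ne, ZMod.intCast_zmod_eq_zero_iff_dvd]
  set j : ℤ := (((k₀ : ZMod p)⁻¹).val : ℤ) with hj
  have hjk : (p : ℤ) ∣ j * k₀ - 1 := by
    rw [← ZMod.intCast_zmod_eq_zero_iff_dvd]
    push_cast
    rw [hj, Int.cast_natCast, ZMod.natCast_zmod_val, inv_mul_cancel₀ hk₀Z, sub_self]
  have hjT : j • T = T₀ := by
    obtain ⟨q, hq⟩ := hjk
    have : j * k₀ = 1 + p * q := by linarith
    rw [hk₀, ← mul_zsmul, this, add_zsmul, one_zsmul, mul_comm, mul_zsmul, hpT₀', zsmul_zero,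
      add_zero]
  refine ⟨hpT, ?_⟩
  intro g hg
  obtain ⟨k, hk⟩ := hS1 g hg
  refine ⟨((k * j : ℤ) : ZMod p), ?_⟩
  rw [val_intCast_nsmul_pt hpT, mul_zsmul, hjT, ← hk]
  abel

end StepB

/-! ### Step C: the context of the moving branch -/

section StepC

variable {W' : WeierstrassCurve ℚ} {p : ℕ} [hp : Fact p.Prime]

/-- The data of the branch "some `t ∈ I₁` moves `β`". -/
structure Ctx (W' : WeierstrassCurve ℚ) (p : ℕ) (B : ValuationSubring Qb) (ζ ζ' β : Qb)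
    (Q₀ T : (W'⁄Qb).Point) (t : GQ) : Prop where
  ht : t ∈ B.inertiaSubgroupIn ℚ
  htζ : t ζ = ζ
  hpT : p • T = 0
  htQ : t • Q₀ = Q₀ + T
  hfixT : ∀ s ∈ B.inertiaSubgroupIn ℚ, s ζ = ζ → s • T = T
  hchiT : ∀ g ∈ B.inertiaSubgroupIn ℚ, ∀ c : ℕ, g ζ = ζ ^ c → g • T = c • T
  htrans : ∀ g ∈ B.inertiaSubgroupIn ℚ, ∃ b : ZMod p, g • Q₀ = Q₀ + b.val • T
  hζ' : ∀ s : GQ, s ζ = ζ → s ζ' = ζ'
  htβ : t β = ζ' * β
  hS3 : ∀ s ∈ B.inertiaSubgroupIn ℚ, s ζ = ζ → s • Q₀ = Q₀ → s β = β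

namespace Ctx

variable {B : ValuationSubring Qb} {ζ ζ' β : Qb} {Q₀ T : (W'⁄Qb).Point} {t : GQ}

omit hp in
theorem pow_mem (C : Ctx W' p B ζ ζ' β Q₀ T t) (k : ℕ) : t ^ k ∈ B.inertiaSubgroupIn ℚ :=
  Subgroup.pow_mem _ C.ht k

omit hp in
theorem pow_zeta (C : Ctx W' p B ζ ζ' β Q₀ T t) (k : ℕ) : (t ^ k) ζ = ζ := by
  induction k with
  | zero => simp
  | succ k ih => rw [pow_succ, AlgEquiv.mul_apply, C.htζ, ih]

omit hp in
theorem pow_smul (C : Ctx W' p B ζ ζ' β Q₀ T t) (k : ℕ) : (t ^ k) • Q₀ = Q₀ + k • T := by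
  induction k with
  | zero => simp
  | succ k ih =>
    rw [pow_succ, mul_smul, C.htQ, smul_add_pt, ih, C.hfixT _ (C.pow_mem k) (C.pow_zeta k),
      succ_nsmul]
    abel

omit hp in
theorem pow_beta (C : Ctx W' p B ζ ζ' β Q₀ T t) (k : ℕ) : (t ^ k) β = ζ' ^ k * β := by
  induction k with
  | zero => simp
  | succ k ih =>
    rw [pow_succ', AlgEquiv.mul_apply, ih, map_mul, map_pow, C.hζ' t C.htζ, C.htβ, pow_succ]
    ring

omit hp in
/-- (S3″) in translation form. -/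
theorem beta_of_translate (C : Ctx W' p B ζ ζ' β Q₀ T t) {s : GQ}
    (hs : s ∈ B.inertiaSubgroupIn ℚ) (hsζ : s ζ = ζ) {k : ℕ} (hsQ : s • Q₀ = Q₀ + k • T) :
    s β = ζ' ^ k * β := by
  set s' : GQ := (t ^ k)⁻¹ * s with hs'
  have h1 : s' ∈ B.inertiaSubgroupIn ℚ := mul_mem (inv_mem (C.pow_mem k)) hs
  have h2 : s' ζ = ζ := by
    rw [hs', AlgEquiv.mul_apply, hsζ, AlgEquiv.aut_inv]
    nth_rewrite 1 [← C.pow_zeta k]
    rw [AlgEquiv.symm_apply_apply]
  have h3 : s' • Q₀ = Q₀ := by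
    rw [hs', mul_smul, hsQ, ← C.pow_smul k, inv_smul_smul]
  have h4 := C.hS3 s' h1 h2 h3
  rw [hs', AlgEquiv.mul_apply, AlgEquiv.aut_inv] at h4
  have h5 : s β = (t ^ k) β := by
    have := congrArg (t ^ k) h4
    rwa [AlgEquiv.apply_symm_apply] at this
  rw [h5, C.pow_beta k]

/-- `s ∈ I₁` translates the points `Q₀ + m T`. -/
theorem smul_pts (C : Ctx W' p B ζ ζ' β Q₀ T t) {s : GQ}
    (hs : s ∈ B.inertiaSubgroupIn ℚ) (hsζ : s ζ = ζ) {b : ZMod p}
    (hsQ : s • Q₀ = Q₀ + b.val • T) (m : ZMod p) :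
    s • (Q₀ + m.val • T) = Q₀ + (m + b).val • T := by
  rw [smul_add_pt, hsQ, smul_nsmul_pt, C.hfixT s hs hsζ, val_add_nsmul_pt C.hpT]
  abel

/-- the twisted Fourier coefficients of an equivariant coordinate function are `I₁`-fixed. -/
theorem fixed_fourier (C : Ctx W' p B ζ ζ' β Q₀ T t) (hζ'p : ζ' ^ p = 1)
    (φ : (W'⁄Qb).Point → Qb)
    (hφ : ∀ g ∈ B.inertiaSubgroupIn ℚ, ∀ P, φ (g • P) = g (φ P)) (i : ℕ) :
    ∀ s ∈ B.inertiaSubgroupIn ℚ, s ζ = ζ →
      s (fourier ζ' (fun m : ZMod p => φ (Q₀ + m.val • T)) i * β⁻¹ ^ i)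
        = fourier ζ' (fun m : ZMod p => φ (Q₀ + m.val • T)) i * β⁻¹ ^ i := by
  intro s hs hsζ
  obtain ⟨b, hb⟩ := C.htrans s hs
  refine fourier_mul_inv_pow_fixed hζ'p _ s (C.hζ' s hsζ) b ?_ (C.beta_of_translate hs hsζ hb) i
  intro m
  show s (φ (Q₀ + m.val • T)) = φ (Q₀ + (m + b).val • T)
  rw [← hφ s hs, C.smul_pts hs hsζ hb]

end Ctx

end StepC

/-! ### The core lemma -/

section Main

variable (W' : WeierstrassCurve ℚ) {p : ℕ} [hp : Fact p.Prime]

omit hp in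
theorem inKer_nsmul {K : Type*} [Field K] [DecidableEq K] {Γ₀ : Type*}
    [LinearOrderedCommGroupWithZero Γ₀] {v : Valuation K Γ₀} {W : WeierstrassCurve K}
    (hW : IntegralCoeffs v W) {P : W.toAffine.Point} (hP : InKer v W P) (k : ℕ) :
    InKer v W (k • P) := by
  induction k with
  | zero => rw [zero_nsmul]; exact Or.inl rfl
  | succ k ih => rw [succ_nsmul]; exact inKer_add hW ih hP

/-- **K3Beta, core lemma.** -/
theorem core (hp2 : p ≠ 2) (B : ValuationSubring Qb) (hB : B.LiesOverPrime p)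
    (hW : IntegralCoeffs B.valuation (W'⁄Qb))
    {ζ : Qb} (hζ : IsPrimitiveRoot ζ p)
    {Q₀ T₀ : (W'⁄Qb).Point} (hT₀ : p • T₀ = 0)
    (hQ₀ : InKer B.valuation (W'⁄Qb) Q₀ ∨
      ∃ (x y : Qb) (h : (W'⁄Qb).toAffine.Nonsingular x y), Q₀ = Point.some x y h ∧
        B.valuation x ≤ 1 ∧ B.valuation y ≤ 1 ∧
        (B.valuation ((W'⁄Qb).a₁ * y - (3 * x ^ 2 + 2 * (W'⁄Qb).a₂ * x + (W'⁄Qb).a₄)) = 1 ∨
          B.valuation (2 * y + (W'⁄Qb).a₁ * x + (W'⁄Qb).a₃) = 1))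
    (hS1 : ∀ g ∈ B.inertiaSubgroupIn ℚ, ∃ k : ℤ, g • Q₀ - Q₀ = k • T₀)
    (hS2 : ∀ g ∈ B.inertiaSubgroupIn ℚ, ∀ c : ℕ, g ζ = ζ ^ c → g • T₀ = c • T₀)
    {β u : Qb} {n : ℤ} (hβ : β ^ p = (p : Qb) ^ n * u) (hu : B.valuation u = 1)
    (hu1 : ∀ t ∈ B.inertiaSubgroupIn ℚ, t ζ = ζ → t u = u)
    (hS3 : ∀ s ∈ B.inertiaSubgroupIn ℚ, s ζ = ζ → s • Q₀ = Q₀ → s β = β) :
    (p : ℤ) ∣ n := by
  classical
  by_contra hn
  set v := B.valuation with hv
  set w := v (p : Qb) with hw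
  have hw0 : 0 < w := valuation_p_pos B hp.out
  have hw1 : w < 1 := valuation_p_lt_one B hB
  have hp0 : (p : Qb) ≠ 0 := Nat.cast_ne_zero.mpr hp.out.ne_zero
  have hp3 : 3 ≤ p := by
    have := hp.out.two_le
    omega
  have hu0 : u ≠ 0 := by
    rintro rfl
    rw [_root_.map_zero] at hu
    exact zero_ne_one hu
  have hβ0 : β ≠ 0 := by
    rintro rfl
    rw [zero_pow hp.out.ne_zero] at hβ
    exact mul_ne_zero (zpow_ne_zero n hp0) hu0 hβ.symm
  -- inertia-like maps and equivariance of the coordinates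
  have hIL : ∀ g ∈ B.inertiaSubgroupIn ℚ,
      InertiaLike v (W'⁄Qb) (g : Qb →+* Qb) (Point.map (W' := W') g.toAlgHom) :=
    fun g hg => inertiaLike_galois W' B hg
  have hxeq : ∀ g ∈ B.inertiaSubgroupIn ℚ, ∀ P : (W'⁄Qb).Point,
      xOf (W'⁄Qb) (g • P) = g (xOf (W'⁄Qb) P) := fun g hg P => xOf_map (hIL g hg) P
  have hyeq : ∀ g ∈ B.inertiaSubgroupIn ℚ, ∀ P : (W'⁄Qb).Point,
      yOf (W'⁄Qb) (g • P) = g (yOf (W'⁄Qb) P) := fun g hg P => yOf_map (hIL g hg) P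
  have hzeq : ∀ g ∈ B.inertiaSubgroupIn ℚ, ∀ P : (W'⁄Qb).Point,
      zOf (W'⁄Qb) (g • P) = g (zOf (W'⁄Qb) P) := fun g hg P => zOf_map (hIL g hg) P
  -- Step 0
  by_cases hfixβ : ∀ t ∈ B.inertiaSubgroupIn ℚ, t ζ = ζ → t β = β
  · exact hn (dvd_of_fixed hζ B hB hβ hu hfixβ)
  push Not at hfixβ
  obtain ⟨t, ht, htζ, htβne⟩ := hfixβ
  have hβp : t (β ^ p) = β ^ p := by
    rw [hβ, map_mul, map_zpow₀, map_natCast, hu1 t ht htζ]
  obtain ⟨ζ', hζ', htβ, hζ'fix⟩ := exists_root_of_moved hζ hβp hβ0 htβne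
  have hmove : t • Q₀ ≠ Q₀ := fun h => htβne (hS3 t ht htζ h)
  obtain ⟨hpT, htrans⟩ := exists_translate B hT₀ hS1 ht hmove
  set T : (W'⁄Qb).Point := t • Q₀ - Q₀ with hT
  have hT0 : T ≠ 0 := fun h => hmove (sub_eq_zero.mp h)
  obtain ⟨k₀, hk₀⟩ := hS1 t ht
  change T = k₀ • T₀ at hk₀
  have hchiT : ∀ g ∈ B.inertiaSubgroupIn ℚ, ∀ c : ℕ, g ζ = ζ ^ c → g • T = c • T := by
    intro g hg c hc
    have e : k₀ • (c • T₀) = c • (k₀ • T₀) := by
      rw [← natCast_zsmul, ← natCast_zsmul, smul_comm]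
    rw [hk₀, smul_zsmul_pt, hS2 g hg c hc, e]
  have hfixT : ∀ s ∈ B.inertiaSubgroupIn ℚ, s ζ = ζ → s • T = T := by
    intro s hs hsζ
    have := hchiT s hs 1 (by rw [hsζ, pow_one])
    rwa [one_nsmul] at this
  have C : Ctx W' p B ζ ζ' β Q₀ T t :=
    ⟨ht, htζ, hpT, by rw [hT]; abel, hfixT, hchiT, htrans, hζ'fix, htβ, hS3⟩
  have hvβ : v β ^ p = w ^ n := by
    rw [← map_pow, hβ, map_mul, map_zpow₀, hu, mul_one]
  -- `T` lies in the kernel of reduction
  have hTker : InKer v (W'⁄Qb) T := by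
    rcases hQ₀ with hk | ⟨x, y, h, rfl, hx, hy, hns⟩
    · have h1 : InKer v (W'⁄Qb) (t • Q₀) := inKer_map (hIL t ht) hk
      rw [hT, sub_eq_add_neg]
      exact inKer_add hW h1 (inKer_neg hk)
    · obtain ⟨h', hfQ⟩ := (hIL t ht).map_some x y h
      have e : t • Point.some x y h = Point.some (t x) (t y) h' := hfQ
      rw [hT, e]
      exact sub_inKer_of_congr hW h h' hx hy ((hIL t ht).sub_lt x hx) ((hIL t ht).sub_lt y hy) hns
  obtain ⟨xT, yT, hTns, hTeq, hxT⟩ : ∃ (x y : Qb) (h : (W'⁄Qb).toAffine.Nonsingular x y),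
      T = Point.some x y h ∧ 1 < v x := by
    rcases hTker with h0 | ⟨x, y, h, he, hx⟩
    · exact absurd h0 hT0
    · exact ⟨x, y, h, he, hx⟩
  set zT : Qb := xT / yT with hzTdef
  have hzT : zOf (W'⁄Qb) T = zT := by rw [hTeq]; rfl
  have hzTsq : v zT ^ 2 = (v xT)⁻¹ := val_zOf_sq hW hTns.1 hxT
  have hxT0 : xT ≠ 0 := by
    rintro rfl
    rw [_root_.map_zero] at hxT
    exact absurd hxT (not_lt.mpr zero_le_one)
  have hzT0 : zT ≠ 0 := div_ne_zero hxT0 (y_ne_zero hW hTns.1 hxT)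
  have hvzT0 : 0 < v zT := zero_lt_iff.mpr ((Valuation.ne_zero_iff _).mpr hzT0)
  have hzT1 : v zT < 1 := by
    by_contra hge
    push Not at hge
    have : 1 ≤ v zT ^ 2 := one_le_pow₀ hge
    rw [hzTsq] at this
    exact absurd (inv_lt_one_of_one_lt₀ hxT) (not_lt.mpr this)
  -- the tame-character trick
  have htame_main : v zT ^ (p - 1) = w := by
    refine valuation_pow_pred_eq_of_tame B hB hζ hzT0 hzT1 ?_ ?_ ?_
    · exact val_mul_zOf_le_of_nsmul_eq_zero hW hTns hxT (n := p) (by rw [← hTeq]; exact hpT)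
    · intro s hs hsζ
      have h1 := hzeq s hs T
      rw [hfixT s hs hsζ, hzT] at h1
      exact h1.symm
    · intro g hg c hc
      have h1 := hzeq g hg T
      rw [hchiT g hg c hc, hzT] at h1
      rw [← h1, hTeq]
      exact val_zOf_nsmul_sub_le hW hTns hxT c
  have hzTN : v zT ^ (p * (p - 1)) = w ^ p := by rw [mul_comm, pow_mul, htame_main]
  have hcontra : ∀ ρ : B.ValueGroup, v zT ≤ ρ → ρ ^ (p * (p - 1)) ≤ w ^ (p + 1) → False := by
    intro ρ h1 h2
    have h3 : w ^ p ≤ w ^ (p + 1) := hzTN ▸ (pow_le_pow_left₀ zero_le h1 _).trans h2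
    have h4 : w ^ (p + 1) < w ^ p := pow_lt_pow_right_of_lt_one₀ hw0 hw1 (Nat.lt_succ_self p)
    exact absurd h3 (not_le.mpr h4)
  -- (G3) for an equivariant integral coordinate
  have hG3 : ∀ φ : (W'⁄Qb).Point → Qb,
      (∀ g ∈ B.inertiaSubgroupIn ℚ, ∀ P, φ (g • P) = g (φ P)) → v (φ Q₀) ≤ 1 →
      v (t (φ Q₀) - φ Q₀) ^ (p * (p - 1)) ≤ w ^ (p + 1) := by
    intro φ hφ hint
    have ha0 : φ (Q₀ + (0 : ZMod p).val • T) = φ Q₀ := by
      rw [ZMod.val_zero, zero_nsmul, add_zero]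
    have ha1 : φ (Q₀ + (1 : ZMod p).val • T) = t (φ Q₀) := by
      rw [ZMod.val_one, one_nsmul, ← C.htQ, hφ t ht]
    have := valuation_sub_pow_le B hB hζ hζ' hn hβ0 hvβ (fun m : ZMod p => φ (Q₀ + m.val • T))
      (fun i _ => C.fixed_fourier hζ'.pow_eq_one φ hφ i)
      (by show v (φ (Q₀ + (0 : ZMod p).val • T)) ≤ 1; rw [ha0]; exact hint)
    have this' : v (φ (Q₀ + (1 : ZMod p).val • T) - φ (Q₀ + (0 : ZMod p).val • T)) ^ (p * (p - 1))
        ≤ w ^ (p + 1) := this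
    rwa [ha0, ha1] at this'
  rcases hQ₀ with hk | ⟨x, y, h, rfl, hx, hy, hns⟩
  · -- (B) `Q₀` in the kernel of reduction
    have hQ0 : Q₀ ≠ 0 := by
      rintro rfl
      exact hmove (smul_zero_pt t)
    obtain ⟨x₀, y₀, h₀, hQeq, hx₀⟩ : ∃ (x y : Qb) (h : (W'⁄Qb).toAffine.Nonsingular x y),
        Q₀ = Point.some x y h ∧ 1 < v x := by
      rcases hk with h0 | ⟨x, y, h, he, hx⟩
      · exact absurd h0 hQ0
      · exact ⟨x, y, h, he, hx⟩
    set z₀ : Qb := zOf (W'⁄Qb) Q₀ with hz₀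
    have hz₀sq : v z₀ ^ 2 = (v x₀)⁻¹ := by
      rw [hz₀, hQeq, zOf_some]; exact val_zOf_sq hW h₀.1 hx₀
    have hz₀1 : v z₀ < 1 := by
      by_contra hge
      push Not at hge
      have : 1 ≤ v z₀ ^ 2 := one_le_pow₀ hge
      rw [hz₀sq] at this
      exact absurd (inv_lt_one_of_one_lt₀ hx₀) (not_lt.mpr this)
    have hZ := hG3 (zOf (W'⁄Qb)) hzeq hz₀1.le
    -- `v z₀ ^ 2 < v zT`
    have hsq : v z₀ ^ 2 < v zT := by
      by_cases hcmp : v z₀ ≤ v zT
      · calc v z₀ ^ 2 ≤ v zT ^ 2 := pow_le_pow_left₀ zero_le hcmp 2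
          _ = v zT * v zT := pow_two _
          _ < v zT * 1 := mul_lt_mul_of_pos_left hzT1 hvzT0
          _ = v zT := mul_one _
      · push Not at hcmp
        -- the orbit argument
        have hgal : IsGalois ℚ Qb := Fermat.Agent.S54.FrobExists.isGalois_rat_algebraicClosure
        set S : Finset Qb :=
          Finset.image (fun m : ZMod p => zOf (W'⁄Qb) (Q₀ + m.val • T)) Finset.univ with hS
        -- the points `Q₀ + m T` are `t ^ m • Q₀`
        have hpts : ∀ m : ZMod p, Q₀ + m.val • T = (t ^ m.val) • Q₀ := fun m =>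
          (C.pow_smul m.val).symm
        have hvalS : ∀ s ∈ S, v s = v z₀ := by
          intro s hs
          obtain ⟨m, -, rfl⟩ := Finset.mem_image.mp hs
          rw [hpts m, hzeq _ (C.pow_mem m.val)]
          exact valuation_apply_eq_of_mem_inertia B (C.pow_mem m.val) _
        have hz₀0 : v z₀ ≠ 0 := by
          intro h0
          rw [h0, zero_pow two_ne_zero] at hz₀sq
          exact (inv_pos.mpr (zero_lt_one.trans hx₀)).ne hz₀sq
        have h0S : (0 : Qb) ∉ S := by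
          intro h0
          have := hvalS 0 h0
          rw [_root_.map_zero] at this
          exact hz₀0 this.symm
        have hstab : ∀ g ∈ B.inertiaSubgroupIn ℚ, ∀ s ∈ S, g s ∈ S := by
          intro g hg s hs
          obtain ⟨m, -, rfl⟩ := Finset.mem_image.mp hs
          obtain ⟨b, hb⟩ := htrans g hg
          have hgζ : g ζ = ζ ^ ((chi hζ g : (ZMod p)ˣ) : ZMod p).val := chi_spec hζ g
          set c : ℕ := ((chi hζ g : (ZMod p)ˣ) : ZMod p).val with hc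
          refine Finset.mem_image.mpr ⟨b + m * (c : ZMod p), Finset.mem_univ _, ?_⟩
          rw [← hzeq g hg, smul_add_pt, hb, smul_nsmul_pt, hchiT g hg c hgζ,
            val_add_nsmul_pt hpT, val_mul_nsmul_pt hpT, mul_nsmul', val_natCast_nsmul_pt hpT]
          rw [add_assoc]
        obtain ⟨n', hn'⟩ := Fermat.Agent.S13.valuation_pow_card_eq_zpow_of_inertia_stable B hp.out
          hB S h0S hstab hvalS
        have hcard1 : 1 ≤ S.card :=
          Finset.card_pos.mpr ⟨_, Finset.mem_image.mpr ⟨0, Finset.mem_univ _, rfl⟩⟩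
        have hcardp : S.card ≤ p := by
          calc S.card ≤ (Finset.univ : Finset (ZMod p)).card := Finset.card_image_le
            _ = p := by rw [Finset.card_univ, ZMod.card]
        have hz₀pos : 0 < v z₀ := zero_lt_iff.mpr hz₀0
        -- `v z₀ ^ card ≤ w`
        have h1 : v z₀ ^ S.card < 1 := pow_lt_one₀ zero_le hz₀1 (by omega)
        have hn'1 : 1 ≤ n' := by
          by_contra hlt
          push Not at hlt
          have : 1 ≤ w ^ n' := one_le_zpow_of_nonpos₀ hw0 hw1.le (by omega)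
          rw [hn'] at h1
          exact absurd this (not_le.mpr h1)
        have h2 : v z₀ ^ S.card ≤ w := by
          rw [hn']
          calc w ^ n' ≤ w ^ (1 : ℤ) := zpow_le_zpow_right_of_le_one₀ hw0 hw1.le hn'1
            _ = w := zpow_one w
        have h3 : v z₀ ^ p ≤ w := (pow_le_pow_of_le_one zero_le hz₀1.le hcardp).trans h2
        -- `(v z₀ ^ 2) ^ (p - 1) < w = v zT ^ (p - 1)`
        have h4 : (v z₀ ^ 2) ^ (p - 1) < v zT ^ (p - 1) := by
          rw [htame_main, ← pow_mul]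
          have e2 : 2 * (p - 1) = p + (p - 2) := by omega
          rw [e2, pow_add]
          have h5 : v z₀ ^ (p - 2) < 1 := pow_lt_one₀ zero_le hz₀1 (by omega)
          calc v z₀ ^ p * v z₀ ^ (p - 2) ≤ w * v z₀ ^ (p - 2) := mul_le_mul_left h3 _
            _ < w * 1 := mul_lt_mul_of_pos_left h5 hw0
            _ = w := mul_one w
        exact lt_of_pow_lt_pow_left₀ (p - 1) zero_le h4
    have key : v (zOf (W'⁄Qb) (Q₀ + T) - zOf (W'⁄Qb) Q₀) = v (zOf (W'⁄Qb) T) :=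
      val_zOf_add_sub_eq hW hk hTeq hxT (by rw [hzT]; exact hsq)
    rw [← C.htQ, hzeq t ht, hzT] at key
    rw [key] at hZ
    exact hcontra (v zT) le_rfl hZ
  · -- (A) `Q₀` integral with a unit partial derivative
    have hX := hG3 (xOf (W'⁄Qb)) hxeq hx
    have hY := hG3 (yOf (W'⁄Qb)) hyeq hy
    rw [xOf_some] at hX
    rw [yOf_some] at hY
    set ρ : B.ValueGroup := max (v (t x - x)) (v (t y - y)) with hρ
    have hρN : ρ ^ (p * (p - 1)) ≤ w ^ (p + 1) := by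
      rcases max_choice (v (t x - x)) (v (t y - y)) with hc | hc
      · rw [hρ, hc]; exact hX
      · rw [hρ, hc]; exact hY
    have hN0 : p * (p - 1) ≠ 0 := Nat.mul_ne_zero hp.out.ne_zero (by omega)
    have hρ1 : ρ < 1 := by
      by_contra hge
      push Not at hge
      have h1 : 1 ≤ ρ ^ (p * (p - 1)) := one_le_pow₀ hge
      have h2 : w ^ (p + 1) < 1 := pow_lt_one₀ zero_le hw1 (Nat.succ_ne_zero p)
      exact absurd (h1.trans hρN) (not_le.mpr h2)
    obtain ⟨h', hfQ⟩ := (hIL t ht).map_some x y h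
    have e : t • Point.some x y h = Point.some (t x) (t y) h' := hfQ
    have hlev := inLevel_sub_of_congr hW h h' hx hy hρ1 (le_max_left _ _) (le_max_right _ _) hns
    have eT : Point.some (t x) (t y) h' - Point.some x y h = T := by rw [hT, e]
    have hlev' : InLevel v (W'⁄Qb) ((ρ⁻¹) ^ 2) T := by rw [← eT]; exact hlev
    rcases hlev' with h0 | ⟨x2, y2, h2, he2, hle⟩
    · exact hT0 h0
    · have hx2 : x2 = xT := by
        rw [hTeq, Point.some.injEq] at he2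
        exact he2.1.symm
      rw [hx2] at hle
      -- `ρ ≠ 0`
      have hρ0 : ρ ≠ 0 := by
        intro h0
        have h1 : v (t x - x) = 0 := le_antisymm (h0 ▸ le_max_left _ _) zero_le
        have h2 : v (t y - y) = 0 := le_antisymm (h0 ▸ le_max_right _ _) zero_le
        rw [Valuation.zero_iff, sub_eq_zero] at h1 h2
        apply hmove
        rw [e]
        have key : ∀ (a b : Qb) (hab : (W'⁄Qb).toAffine.Nonsingular a b), a = x → b = y →
            Point.some a b hab = Point.some x y h := by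
          intro a b hab ha hb
          subst ha
          subst hb
          rfl
        exact key _ _ h' h1 h2
      have hρpos : 0 < ρ := zero_lt_iff.mpr hρ0
      have hzρ : v zT ≤ ρ := by
        have h3 : v zT ^ 2 ≤ ρ ^ 2 := by
          rw [hzTsq]
          have h4 : 0 < (ρ⁻¹) ^ 2 := pow_pos (inv_pos.mpr hρpos) 2
          have h5 := inv_anti₀ h4 hle
          rwa [inv_pow, inv_inv] at h5
        exact (pow_le_pow_iff_left₀ zero_le zero_le two_ne_zero).mp h3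
      exact hcontra ρ hzρ hρN

end Main

end Fermat.Agent.FF4.K3Beta
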