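import Mathlib
import Fermat.Prelude.Def_FLTPrelim_FreyPackage
import Fermat.Prelude.Def_FLTPrelim_Modularity
import Fermat.Prelude.Def_FLTPrelim_ModularRep
import Fermat.Prelude.Def_FLTPrelim_Ramification

/-!
# Programme II, block A3b, target S44: contracts `K3BetaFreyOut` / `K3BetaModelOut`

Statements only (two `Prop`s), no proof here.  Same literal as `K3BetaOut` (file `Contract.lean`),
with "a curve over `ℤ` with good reduction at `p`" replaced by the Frey curve of a `FreyPackage`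
at the prime `p = P.p ∣ abc` (multiplicative reduction, `p ∣ v_p(Δ)`):

* `B` a valuation subring of `ℚ̄` over `p`, `I = B.inertiaSubgroupIn ℚ`, `I₁ = {t ∈ I | t ζ = ζ}`;
* `P₀, T₀ ∈ E[p](ℚ̄)`:
  (S1′) `t P₀ - P₀ ∈ ℤ T₀` for all `t ∈ I`;  (S2) `t T₀ = χ(t) T₀` for all `t ∈ I`;
* `β ^ p = p ^ n * u`, `u` a `B`-unit fixed by `I₁`, and (S3′) every `s ∈ I₁` fixing `P₀` fixes `β`;

conclusion: `p ∣ n`.

`K3BetaFreyOut` is stated for the points of `P.freyCurve` itself, `K3BetaModelOut` for the points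
of any integral model `W` of it (`W.IsIntegralModelOf P.freyCurve`, the `W` of
`P.ModularRepOfLevel N`); the second follows from the first by transport along the change of
variables (landed `LR/VarChangePoint.pointEquivBC`).
-/

set_option autoImplicit false

namespace Fermat.Agent.FF4.K3Beta

open WeierstrassCurve WeierstrassCurve.Affine

/-- **Contract K3″ (β-form) for the Frey curve at `p ∣ abc`.** -/
def K3BetaFreyOut : Prop :=
  ∀ (P : FreyPackage), (P.p : ℤ) ∣ P.a * P.b * P.c →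
    ∀ (B : ValuationSubring (AlgebraicClosure ℚ)), B.LiesOverPrime P.p →
    ∀ (ζ : AlgebraicClosure ℚ), IsPrimitiveRoot ζ P.p →
    ∀ (P₀ T₀ : (P.freyCurve⁄(AlgebraicClosure ℚ)).Point),
      (P.p : ℤ) • P₀ = 0 → (P.p : ℤ) • T₀ = 0 →
      -- (S1′) inertia moves `P₀` inside `P₀ + ℤ T₀`
      (∀ t ∈ B.inertiaSubgroupIn ℚ, ∃ k : ℤ, t • P₀ - P₀ = k • T₀) →
      -- (S2) inertia acts on `T₀` through the mod `p` cyclotomic character
      (∀ t ∈ B.inertiaSubgroupIn ℚ, ∀ c : ℕ, t ζ = ζ ^ c → t • T₀ = c • T₀) →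
    ∀ (β u : AlgebraicClosure ℚ) (n : ℤ),
      β ^ P.p = (P.p : AlgebraicClosure ℚ) ^ n * u →
      B.valuation u = 1 →
      (∀ t ∈ B.inertiaSubgroupIn ℚ, t ζ = ζ → t u = u) →
      -- (S3′) the elements of `I₁` fixing `P₀` fix `β`
      (∀ s ∈ B.inertiaSubgroupIn ℚ, s ζ = ζ → s • P₀ = P₀ → s β = β) →
      (P.p : ℤ) ∣ n

/-- **Contract K3″ (β-form) for an integral model of the Frey curve at `p ∣ abc`.** -/
def K3BetaModelOut : Prop :=
  ∀ (P : FreyPackage), (P.p : ℤ) ∣ P.a * P.b * P.c →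
    ∀ (W : WeierstrassCurve ℤ), W.IsIntegralModelOf P.freyCurve →
    ∀ (B : ValuationSubring (AlgebraicClosure ℚ)), B.LiesOverPrime P.p →
    ∀ (ζ : AlgebraicClosure ℚ), IsPrimitiveRoot ζ P.p →
    ∀ (P₀ T₀ : ((W.map (Int.castRingHom ℚ))⁄(AlgebraicClosure ℚ)).Point),
      (P.p : ℤ) • P₀ = 0 → (P.p : ℤ) • T₀ = 0 →
      (∀ t ∈ B.inertiaSubgroupIn ℚ, ∃ k : ℤ, t • P₀ - P₀ = k • T₀) →
      (∀ t ∈ B.inertiaSubgroupIn ℚ, ∀ c : ℕ, t ζ = ζ ^ c → t • T₀ = c • T₀) →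
    ∀ (β u : AlgebraicClosure ℚ) (n : ℤ),
      β ^ P.p = (P.p : AlgebraicClosure ℚ) ^ n * u →
      B.valuation u = 1 →
      (∀ t ∈ B.inertiaSubgroupIn ℚ, t ζ = ζ → t u = u) →
      (∀ s ∈ B.inertiaSubgroupIn ℚ, s ζ = ζ → s • P₀ = P₀ → s β = β) →
      (P.p : ℤ) ∣ n

end Fermat.Agent.FF4.K3Beta
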