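import Mathlib
import Fermat.Agent.S05.Defs
import Fermat.Agent.S05.Node
import Fermat.Agent.S05.FixedPoint

/-!
# K3Beta, node case: one point of a branch fixed by ALL inertia-like maps

`W : y² + a₁xy = x³ + a₂x² + a₄x` with `NodeData`.  For `x₀` with `v a₄ < v x₀ < 1` there is exactly
one point of the `α`-branch with `x`-coordinate `x₀`; hence it is fixed by every inertia-like map
fixing `a₁, a₂, x₀`.  (The landed `S05.exists_fixed_onBranch` produces the fixed point after the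
map; here the point is chosen first.)
-/

set_option autoImplicit false

namespace Fermat.Agent.FF4.K3Beta

open WeierstrassCurve WeierstrassCurve.Affine
open Fermat.Agent.S05

variable {K : Type*} [Field K] [DecidableEq K] {Γ₀ : Type*} [LinearOrderedCommGroupWithZero Γ₀]
variable {v : Valuation K Γ₀} {W : WeierstrassCurve K} {α β : K}

/-- A point of the `α`-branch whose `x`-coordinate is `σ`-fixed is fixed by `f`. -/
theorem map_eq_of_onBranch_of_fixed_x (hN : NodeData v W α β) {σ : K →+* K}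
    {f : W.toAffine.Point →+ W.toAffine.Point} (hf : InertiaLike v W σ f)
    (h1 : σ W.a₁ = W.a₁) (h2 : σ W.a₂ = W.a₂)
    {x y : K} (h : W.toAffine.Nonsingular x y) (hξ : v (y - α * x) < v x) (hx : σ x = x) :
    f (Point.some x y h) = Point.some x y h := by
  obtain ⟨h', hfR⟩ := hf.map_some x y h
  have hσα : σ α = α := fp_sigma_alpha hN hf h1 h2
  have hσy : σ y = y := by
    rcases Y_eq_of_X_eq h'.1 h.1 hx with hy | hy
    · exact hy
    · exfalso
      have e1 : σ (y - α * x) = σ y - α * x := by rw [map_sub, map_mul, hσα, hx]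
      have e2 : v (σ y - α * x) < v x := by rw [← e1, hf.val_eq]; exact hξ
      have e3 : σ y - α * x = -(y - β * x) := by
        rw [hy]
        have := (NodeData.symm hN).negY_sub x y
        exact this
      rw [e3, Valuation.map_neg, val_other hN hξ] at e2
      exact lt_irrefl _ e2
  rw [hfR]
  simp only [hx, hσy]

omit [DecidableEq K] in
/-- Existence of a point of the `α`-branch with prescribed `x`-coordinate. -/
theorem exists_onBranch_x [IsAlgClosed K] (hN : NodeData v W α β)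
    {x₀ : K} (hlo : v W.a₄ < v x₀) (hhi : v x₀ < 1) :
    ∃ (y₀ : K) (_ : W.toAffine.Nonsingular x₀ y₀), v (y₀ - α * x₀) < v x₀ := by
  set g := v x₀ with hg
  have hg0 : g ≠ 0 := fun h => by rw [h] at hlo; exact not_lt_zero hlo
  have hgpos : 0 < g := zero_lt_iff.mpr hg0
  set δ := α - β with hδ
  set c := x₀ ^ 3 + W.a₄ * x₀ with hc
  have hvc : v c < g * g := by
    have e : c = x₀ * (x₀ ^ 2 + W.a₄) := by rw [hc]; ring
    rw [e, map_mul]
    refine mul_lt_mul_of_pos_left ?_ hgpos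
    refine lt_of_le_of_lt (Valuation.map_add _ _ _) (max_lt ?_ hlo)
    rw [map_pow, pow_two]
    calc g * g < g * 1 := mul_lt_mul_of_pos_left hhi hgpos
      _ = g := mul_one _
  have hvδx : v (δ * x₀) = g := by rw [map_mul, hN.sep, one_mul]
  obtain ⟨ξa, hξa⟩ : ∃ ξ : K, ξ * ξ + δ * x₀ * ξ - c = 0 := by
    have hdeg : (Polynomial.X ^ 2 + Polynomial.C (δ * x₀) * Polynomial.X - Polynomial.C c :
        Polynomial K).degree ≠ 0 := by
      have : (Polynomial.X ^ 2 + Polynomial.C (δ * x₀) * Polynomial.X - Polynomial.C c :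
          Polynomial K).degree = 2 := by
        compute_degree!
      rw [this]; norm_num
    obtain ⟨ξ, hξ⟩ := IsAlgClosed.exists_root _ hdeg
    refine ⟨ξ, ?_⟩
    simpa [Polynomial.IsRoot, pow_two] using hξ
  set ξb := -(δ * x₀) - ξa with hξb
  have hξb_root : ξb * ξb + δ * x₀ * ξb - c = 0 := by rw [hξb]; linear_combination hξa
  have hsum : ξa + ξb = -(δ * x₀) := by rw [hξb]; ring
  have hprod : ξa * ξb = -c := by rw [hξb]; linear_combination -hξa
  obtain ⟨ξ₁, ξ₂, hr1, hs, -, hsmall⟩ : ∃ ξ₁ ξ₂ : K, ξ₁ * ξ₁ + δ * x₀ * ξ₁ - c = 0 ∧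
      ξ₁ + ξ₂ = -(δ * x₀) ∧ ξ₁ * ξ₂ = -c ∧ v ξ₁ < g := by
    by_cases ha : v ξa < g
    · exact ⟨ξa, ξb, hξa, hsum, hprod, ha⟩
    · rw [not_lt] at ha
      refine ⟨ξb, ξa, hξb_root, by rw [add_comm]; exact hsum, by rw [mul_comm]; exact hprod, ?_⟩
      by_contra hb
      rw [not_lt] at hb
      have : g * g ≤ v (ξa * ξb) := by
        rw [map_mul]; exact mul_le_mul' ha hb
      rw [hprod, Valuation.map_neg] at this
      exact absurd hvc (not_lt.mpr this)
  have hv2 : v ξ₂ = g := by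
    have : ξ₂ = -(δ * x₀) - ξ₁ := by rw [← hs]; ring
    rw [this, sub_eq_add_neg, Valuation.map_add_eq_of_lt_left]
    · rw [Valuation.map_neg]; exact hvδx
    · rw [Valuation.map_neg, Valuation.map_neg, hvδx]; exact hsmall
  set y₀ := ξ₁ + α * x₀ with hy₀
  have hξ₁ : y₀ - α * x₀ = ξ₁ := by rw [hy₀]; ring
  have hη₁ : y₀ - β * x₀ = ξ₁ + δ * x₀ := by rw [hy₀, hδ]; ring
  have heq : W.toAffine.Equation x₀ y₀ := by
    rw [fp_equation_iff hN, hξ₁, hη₁, ← hc]
    linear_combination hr1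
  have hns : W.toAffine.Nonsingular x₀ y₀ := by
    rw [Affine.nonsingular_iff]
    refine ⟨heq, Or.inr ?_⟩
    have e : y₀ - W.toAffine.negY x₀ y₀ = ξ₁ - ξ₂ := by
      have h1' : W.a₁ = -(α + β) := by rw [hN.sum]; ring
      have hξ₂ : ξ₂ = -(δ * x₀) - ξ₁ := by rw [← hs]; ring
      rw [Affine.negY, hN.a₃, h1', hξ₂, hy₀, hδ]; ring
    intro hcon
    have hcon' : y₀ - W.toAffine.negY x₀ y₀ = 0 := sub_eq_zero.mpr hcon
    rw [e] at hcon'
    have : ξ₁ = ξ₂ := sub_eq_zero.mp hcon'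
    rw [this, hv2] at hsmall
    exact lt_irrefl _ hsmall
  exact ⟨y₀, hns, by rw [hξ₁]; exact hsmall⟩

/-- **One point of the `α`-branch at level `v x₀`, fixed by all inertia-like maps fixing
`a₁, a₂, x₀`.** -/
theorem exists_onBranch_forall_fixed [IsAlgClosed K] (hN : NodeData v W α β)
    {x₀ : K} (hlo : v W.a₄ < v x₀) (hhi : v x₀ < 1) :
    ∃ R : W.toAffine.Point, OnBranch v W α (v x₀) R ∧
      ∀ (σ : K →+* K) (f : W.toAffine.Point →+ W.toAffine.Point), InertiaLike v W σ f →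
        σ W.a₁ = W.a₁ → σ W.a₂ = W.a₂ → σ x₀ = x₀ → f R = R := by
  obtain ⟨y₀, hns, hξ⟩ := exists_onBranch_x hN hlo hhi
  refine ⟨Point.some x₀ y₀ hns, ⟨x₀, y₀, hns, rfl, rfl, hξ⟩, ?_⟩
  intro σ f hf h1 h2 hx
  exact map_eq_of_onBranch_of_fixed_x hN hf h1 h2 hns hξ hx

end Fermat.Agent.FF4.K3Beta
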