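import Mathlib
import Fermat.Agent.S05.Frey
import Fermat.Agent.FF4.K3Beta.Core
import Fermat.Agent.FF4.K3Beta.NodeFix

/-!
# K3Beta, node case: the core lemma for a curve with `NodeData` and rational levels

`W' : y² + a₁xy = x³ + a₂x² + a₄x` over `ℚ` with a node at `(0,0)` modulo `p` (`NodeData` over `ℚ̄`),
such that every level `g` with `g ^ p = v(a₄) ^ (2k)` is the valuation of an integer
(this is where `p ∣ v_p(Δ)` enters).  Then the statement K3″ holds for the `p`-torsion point `P₀`: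
translate `P₀` by an inertia-fixed point `R₀ ∈ {0, (0,0), R}` into `E₀` and apply `core`.
-/

set_option autoImplicit false

namespace Fermat.Agent.FF4.K3Beta

open WeierstrassCurve WeierstrassCurve.Affine WeierstrassCurve.Affine.Point
open scoped WeierstrassCurve.Affine
open Fermat.Agent.S05

local notation "Qb" => AlgebraicClosure ℚ
local notation "GQ" => (AlgebraicClosure ℚ ≃ₐ[ℚ] AlgebraicClosure ℚ)

section Generic

variable {K : Type*} [Field K] [DecidableEq K] {Γ₀ : Type*} [LinearOrderedCommGroupWithZero Γ₀]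
variable {v : Valuation K Γ₀} {W : WeierstrassCurve K} {α β : K}

/-- `Q` lies in the kernel of reduction, or is integral with a unit partial derivative
(nonsingular reduction). -/
def GoodPt (v : Valuation K Γ₀) (W : WeierstrassCurve K) (Q : W.toAffine.Point) : Prop :=
  InKer v W Q ∨
    ∃ (x y : K) (h : W.toAffine.Nonsingular x y), Q = Point.some x y h ∧
      v x ≤ 1 ∧ v y ≤ 1 ∧
      (v (W.a₁ * y - (3 * x ^ 2 + 2 * W.a₂ * x + W.a₄)) = 1 ∨
        v (2 * y + W.a₁ * x + W.a₃) = 1)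

omit [DecidableEq K] in
/-- A point of `E₀` (not reducing to the node) is a good point. -/
theorem goodPt_of_inE0 (hN : NodeData v W α β) {Q : W.toAffine.Point} (hQ : InE0 v W Q) :
    GoodPt v W Q := by
  have hW : IntegralCoeffs v W := NodeData.integralCoeffs hN
  rcases hQ with rfl | ⟨x, y, h, rfl, hx⟩
  · exact Or.inl (Or.inl rfl)
  · rcases hx.lt_or_eq with hlt | heq
    · exact Or.inl (Or.inr ⟨x, y, h, rfl, hlt⟩)
    · have hx1 : v x = 1 := heq.symm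
      exact Or.inr ⟨x, y, h, rfl, hx1.le, y_integral hW h.1 hx1.le,
        partial_unit_of_unit_x hN h.1 hx1⟩

end Generic

section Main

variable (W' : WeierstrassCurve ℚ) {p : ℕ} [hp : Fact p.Prime]

/-- `core` after translating `P₀` by an inertia-fixed point `R`. -/
theorem core_translate (hp2 : p ≠ 2) (B : ValuationSubring Qb) (hB : B.LiesOverPrime p)
    (hW : IntegralCoeffs B.valuation (W'⁄Qb))
    {ζ : Qb} (hζ : IsPrimitiveRoot ζ p)
    {P₀ T₀ R : (W'⁄Qb).Point} (hT₀ : p • T₀ = 0)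
    (hR : ∀ g ∈ B.inertiaSubgroupIn ℚ, g • R = R)
    (hQ₀ : GoodPt B.valuation (W'⁄Qb) (P₀ + R))
    (hS1 : ∀ g ∈ B.inertiaSubgroupIn ℚ, ∃ k : ℤ, g • P₀ - P₀ = k • T₀)
    (hS2 : ∀ g ∈ B.inertiaSubgroupIn ℚ, ∀ c : ℕ, g ζ = ζ ^ c → g • T₀ = c • T₀)
    {β u : Qb} {n : ℤ} (hβ : β ^ p = (p : Qb) ^ n * u) (hu : B.valuation u = 1)
    (hu1 : ∀ t ∈ B.inertiaSubgroupIn ℚ, t ζ = ζ → t u = u)
    (hS3 : ∀ s ∈ B.inertiaSubgroupIn ℚ, s ζ = ζ → s • P₀ = P₀ → s β = β) :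
    (p : ℤ) ∣ n := by
  refine core W' hp2 B hB hW hζ hT₀ hQ₀ ?_ hS2 hβ hu hu1 ?_
  · intro g hg
    obtain ⟨k, hk⟩ := hS1 g hg
    refine ⟨k, ?_⟩
    rw [smul_add_pt, hR g hg, ← hk]
    abel
  · intro s hs hsζ hsQ
    apply hS3 s hs hsζ
    rw [smul_add_pt, hR s hs] at hsQ
    exact add_right_cancel hsQ

/-- **K3Beta, node case.** -/
theorem core_node (hp2 : p ≠ 2) (B : ValuationSubring Qb) (hB : B.LiesOverPrime p)
    {α β : Qb} (hN : NodeData B.valuation (W'⁄Qb) α β)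
    (hlev : ∀ g, B.valuation (W'⁄Qb).a₄ < g → g < 1 →
      (∃ k : ℕ, g ^ p = B.valuation (W'⁄Qb).a₄ ^ (2 * k)) → ∃ m : ℤ, B.valuation (m : Qb) = g)
    {ζ : Qb} (hζ : IsPrimitiveRoot ζ p)
    {P₀ T₀ : (W'⁄Qb).Point} (hP₀ : p • P₀ = 0) (hT₀ : p • T₀ = 0)
    (hS1 : ∀ g ∈ B.inertiaSubgroupIn ℚ, ∃ k : ℤ, g • P₀ - P₀ = k • T₀)
    (hS2 : ∀ g ∈ B.inertiaSubgroupIn ℚ, ∀ c : ℕ, g ζ = ζ ^ c → g • T₀ = c • T₀)
    {β' u : Qb} {n : ℤ} (hβ : β' ^ p = (p : Qb) ^ n * u) (hu : B.valuation u = 1)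
    (hu1 : ∀ t ∈ B.inertiaSubgroupIn ℚ, t ζ = ζ → t u = u)
    (hS3 : ∀ s ∈ B.inertiaSubgroupIn ℚ, s ζ = ζ → s • P₀ = P₀ → s β' = β') :
    (p : ℤ) ∣ n := by
  have hW : IntegralCoeffs B.valuation (W'⁄Qb) := NodeData.integralCoeffs hN
  have hIL : ∀ g ∈ B.inertiaSubgroupIn ℚ,
      InertiaLike B.valuation (W'⁄Qb) (g : Qb →+* Qb) (Point.map (W' := W') g.toAlgHom) :=
    fun g hg => inertiaLike_galois W' B hg
  have hp0 : 0 < p := hp.out.pos
  -- the branch case, for both orderings of the tangent directions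
  have branch : ∀ {α' β'' : Qb}, NodeData B.valuation (W'⁄Qb) α' β'' →
      ∀ g, B.valuation (W'⁄Qb).a₄ < g → g < 1 → OnBranch B.valuation (W'⁄Qb) α' g P₀ →
        (p : ℤ) ∣ n := by
    intro α' β'' hN' g hg hg1 hPg
    obtain ⟨k, hk⟩ := level_pow_of_torsion hN' hp0 hP₀ hg hg1 hPg
    obtain ⟨m, hm⟩ := hlev g hg hg1 ⟨k, hk⟩
    obtain ⟨R, hRg, hRfix⟩ := exists_onBranch_forall_fixed hN' (x₀ := ((m : ℤ) : Qb))
      (by rw [hm]; exact hg) (by rw [hm]; exact hg1)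
    rw [hm] at hRg
    have hE0 : InE0 B.valuation (W'⁄Qb) (P₀ - R) := inE0_sub_of_onBranch hN' hg hg1 hRg hPg
    have hR : ∀ σ ∈ B.inertiaSubgroupIn ℚ, σ • R = R := fun σ hσ =>
      hRfix _ _ (hIL σ hσ) (σ.commutes _) (σ.commutes _) (map_intCast σ m)
    have hR' : ∀ σ ∈ B.inertiaSubgroupIn ℚ, σ • (-R) = -R := fun σ hσ => by
      rw [smul_neg_pt, hR σ hσ]
    refine core_translate W' hp2 B hB hW hζ hT₀ hR' ?_ hS1 hS2 hβ hu hu1 hS3
    rw [← sub_eq_add_neg]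
    exact goodPt_of_inE0 hN' hE0
  rcases classify hN P₀ with hE0 | hA | ⟨g, hg, hg1, hPα | hPβ⟩
  · have hR : ∀ σ ∈ B.inertiaSubgroupIn ℚ, σ • (0 : (W'⁄Qb).Point) = 0 := fun σ _ =>
      smul_zero_pt σ
    refine core_translate W' hp2 B hB hW hζ hT₀ hR ?_ hS1 hS2 hβ hu hu1 hS3
    rw [add_zero]
    exact goodPt_of_inE0 hN hE0
  · have hR : ∀ σ ∈ B.inertiaSubgroupIn ℚ, σ • (T0 hN) = T0 hN := fun σ hσ =>
      map_T0 hN (hIL σ hσ)
    refine core_translate W' hp2 B hB hW hζ hT₀ hR ?_ hS1 hS2 hβ hu hu1 hS3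
    exact goodPt_of_inE0 hN (inE0_add_T0 hN hA)
  · exact branch hN g hg hg1 hPα
  · exact branch (NodeData.symm hN) g hg hg1 hPβ

end Main

end Fermat.Agent.FF4.K3Beta
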