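import Mathlib
import Fermat.Agent.S05.H26FreyArith
import Fermat.Agent.FF4.K3Beta.FreyContract
import Fermat.Agent.FF4.K3Beta.Node

/-!
# K3Beta for the Frey curve at `p ∣ abc`: the contract `K3BetaFreyOut` is discharged

* `p ∣ ab`: the Frey model itself has `NodeData` at `p` (landed `FreyArith.frey_nodeData_ab`) and
  rational levels (landed `FreyArith.frey_level_ab`, because `a₄ = -(ab)^p/16`);
* `p ∣ c`: the same for the model translated by the rational `2`-torsion point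
  (`frey_nodeData_c`, `frey_level_c`), and the translation commutes with the Galois action
  (landed `S05.shiftEquivBC_smul`).
-/

set_option autoImplicit false

namespace Fermat.Agent.FF4.K3Beta

open WeierstrassCurve WeierstrassCurve.Affine WeierstrassCurve.Affine.Point
open scoped WeierstrassCurve.Affine
open Fermat.Agent.S05 Fermat.Agent.S05.FreyArith

local notation "Qb" => AlgebraicClosure ℚ

/-- **K3″ (β-form), Frey curve at `p ∣ abc`.** -/
theorem k3BetaFreyOut : K3BetaFreyOut := by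
  intro P hdvd B hB ζ hζ P₀ T₀ hP₀ hT₀ hS1 hS2 β u n hβ hu hu1 hS3
  have hpp : P.p.Prime := P.pp
  have : Fact P.p.Prime := ⟨hpp⟩
  have hp2 : P.p ≠ 2 := by
    have := P.hp5
    omega
  have hv : IsQAdic B.valuation P.p := isQAdic_of_liesOverPrime B hpp hB
  have hP₀' : P.p • P₀ = 0 := by rwa [natCast_zsmul] at hP₀
  have hT₀' : P.p • T₀ = 0 := by rwa [natCast_zsmul] at hT₀
  by_cases hc : (P.p : ℤ) ∣ P.c
  · -- the translated model
    obtain ⟨α, β', hsum, hprod⟩ := exists_tangent_roots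
      ((shiftCurve P.freyCurve (((P.a ^ P.p : ℤ) : ℚ) / 4)
        (-((P.a ^ P.p : ℤ) : ℚ) / 8)).map (algebraMap ℚ Qb))
    have hN := frey_nodeData_c P hv hpp hp2 hc hsum hprod
    have hsm : ∀ (σ : Qb ≃ₐ[ℚ] Qb) (Q : (P.freyCurve⁄Qb).Point),
        shiftEquivBC (K := Qb) P.freyCurve (((P.a ^ P.p : ℤ) : ℚ) / 4)
          (-((P.a ^ P.p : ℤ) : ℚ) / 8) (σ • Q) =
        σ • shiftEquivBC (K := Qb) P.freyCurve (((P.a ^ P.p : ℤ) : ℚ) / 4)
          (-((P.a ^ P.p : ℤ) : ℚ) / 8) Q :=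
      fun σ Q => shiftEquivBC_smul (K := Qb) (S := ℚ) P.freyCurve _ _ σ Q
    refine core_node (shiftCurve P.freyCurve (((P.a ^ P.p : ℤ) : ℚ) / 4)
      (-((P.a ^ P.p : ℤ) : ℚ) / 8)) hp2 B hB hN
      (fun g _ _ hg => frey_level_c P hv hpp hp2 hg) hζ
      (P₀ := shiftEquivBC (K := Qb) P.freyCurve _ _ P₀)
      (T₀ := shiftEquivBC (K := Qb) P.freyCurve _ _ T₀) ?_ ?_ ?_ ?_ hβ hu hu1 ?_
    · rw [← map_nsmul, hP₀', _root_.map_zero]
    · rw [← map_nsmul, hT₀', _root_.map_zero]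
    · intro g hg
      obtain ⟨k, hk⟩ := hS1 g hg
      refine ⟨k, ?_⟩
      rw [← hsm, ← map_sub, hk, map_zsmul]
    · intro g hg c hgc
      rw [← hsm, hS2 g hg c hgc, map_nsmul]
    · intro s hs hsζ hsQ
      apply hS3 s hs hsζ
      rw [← hsm] at hsQ
      exact (shiftEquivBC (K := Qb) P.freyCurve _ _).injective hsQ
  · -- the Frey model itself
    have hab : (P.p : ℤ) ∣ P.a * P.b :=
      ((Nat.prime_iff_prime_int.mp hpp).dvd_or_dvd hdvd).resolve_right hc
    obtain ⟨α, β', hsum, hprod⟩ := exists_tangent_roots (P.freyCurve.map (algebraMap ℚ Qb))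
    have hN := frey_nodeData_ab P hv hpp hp2 hab hsum hprod
    exact core_node P.freyCurve hp2 B hB hN (fun g _ _ hg => frey_level_ab P hv hpp hp2 hg) hζ
      hP₀' hT₀' hS1 hS2 hβ hu hu1 hS3

end Fermat.Agent.FF4.K3Beta
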