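import Mathlib
import Fermat.Agent.LR.RedFrobCore
import Fermat.Agent.FF4.K3Beta.Contract
import Fermat.Agent.FF4.K3Beta.Core

/-!
# K3Beta: the good reduction case — the contract `K3BetaOut` is discharged

`k3BetaOut : K3BetaOut` from the core lemma `core`, with `Q₀ := P₀`: a point of a curve with good
reduction is either in the kernel of reduction or integral with a unit partial derivative
(landed `S05.partial_unit_of_disc_unit`).
-/

set_option autoImplicit false

namespace Fermat.Agent.FF4.K3Beta

open WeierstrassCurve WeierstrassCurve.Affine WeierstrassCurve.Affine.Point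
open scoped WeierstrassCurve.Affine
open Fermat.Agent.S05 Fermat.Agent.LR.RedFrob

local notation "Qb" => AlgebraicClosure ℚ

/-- **K3″ (β-form), good reduction.** -/
theorem k3BetaOut : K3BetaOut := by
  intro W p hp hp2 hgood B hB ζ hζ P₀ T₀ _hP₀ hT₀ hS1 hS2 β u n hβ hu hu1 hS3
  have : Fact p.Prime := ⟨hp⟩
  have hKeq : ((W.map (Int.castRingHom ℚ))⁄Qb : WeierstrassCurve Qb) =
      (W.map (Int.castRingHom B)).map (algebraMap B Qb) := baseChange_eq_map W B
  have hW : IntegralCoeffs B.valuation ((W.map (Int.castRingHom ℚ)).toAffine⁄Qb) := by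
    have := integralCoeffs_map B (W.map (Int.castRingHom B))
    rwa [← hKeq] at this
  have hΔ1 : B.valuation ((W.map (Int.castRingHom ℚ)).toAffine⁄Qb).Δ = 1 := by
    have := valuation_Δ_map B (W.map (Int.castRingHom B)) (isUnit_Δ_of_good B W hp hgood hB)
    rwa [← hKeq] at this
  have hT₀' : p • T₀ = 0 := by rwa [natCast_zsmul] at hT₀
  refine core (W.map (Int.castRingHom ℚ)) hp2 B hB hW hζ hT₀' ?_ hS1 hS2 hβ hu hu1 hS3
  rcases P₀ with _ | ⟨x, y, h⟩
  · exact Or.inl (Or.inl rfl)
  · by_cases hx : B.valuation x ≤ 1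
    · right
      have hy : B.valuation y ≤ 1 := y_integral hW h.1 hx
      exact ⟨x, y, h, rfl, hx, hy, partial_unit_of_disc_unit hW hΔ1 h.1 hx hy⟩
    · left
      exact Or.inr ⟨x, y, h, rfl, not_le.mp hx⟩

end Fermat.Agent.FF4.K3Beta
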