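import Mathlib
import Fermat.Agent.LR.VarChangePoint
import Fermat.Agent.FF4.K3Beta.FreyContract
import Fermat.Agent.FF4.K3Beta.Frey

/-!
# K3Beta for an integral model of the Frey curve: the contract `K3BetaModelOut` is discharged

Transport of `k3BetaFreyOut` along the change of variables `C • P.freyCurve = W.map ℤ → ℚ`
(landed `LR/VarChangePoint.pointEquivBC`, Galois-equivariant by `pointEquivBC_smul`).
-/

set_option autoImplicit false

namespace Fermat.Agent.FF4.K3Beta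

open WeierstrassCurve WeierstrassCurve.Affine WeierstrassCurve.Affine.Point
open scoped WeierstrassCurve.Affine
open Fermat.Agent.LR.VarChangePoint

local notation "Qb" => AlgebraicClosure ℚ

/-- K3″ for any curve over `ℚ` obtained from the Frey curve by a change of variables. -/
theorem k3_of_variableChange (P : FreyPackage) (hdvd : (P.p : ℤ) ∣ P.a * P.b * P.c)
    (W' : WeierstrassCurve ℚ) (C : VariableChange ℚ) (hC : C • P.freyCurve = W')
    (B : ValuationSubring Qb) (hB : B.LiesOverPrime P.p)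
    (ζ : Qb) (hζ : IsPrimitiveRoot ζ P.p)
    (P₀ T₀ : (W'⁄Qb).Point) (hP₀ : (P.p : ℤ) • P₀ = 0) (hT₀ : (P.p : ℤ) • T₀ = 0)
    (hS1 : ∀ t ∈ B.inertiaSubgroupIn ℚ, ∃ k : ℤ, t • P₀ - P₀ = k • T₀)
    (hS2 : ∀ t ∈ B.inertiaSubgroupIn ℚ, ∀ c : ℕ, t ζ = ζ ^ c → t • T₀ = c • T₀)
    (β u : Qb) (n : ℤ) (hβ : β ^ P.p = (P.p : Qb) ^ n * u) (hu : B.valuation u = 1)
    (hu1 : ∀ t ∈ B.inertiaSubgroupIn ℚ, t ζ = ζ → t u = u)
    (hS3 : ∀ s ∈ B.inertiaSubgroupIn ℚ, s ζ = ζ → s • P₀ = P₀ → s β = β) :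
    (P.p : ℤ) ∣ n := by
  subst hC
  have hsm : ∀ (σ : Qb ≃ₐ[ℚ] Qb) (Q : ((C • P.freyCurve)⁄Qb).Point),
      pointEquivBC (K := Qb) P.freyCurve C (σ • Q) = σ • pointEquivBC (K := Qb) P.freyCurve C Q :=
    fun σ Q => pointEquivBC_smul (K := Qb) (S := ℚ) P.freyCurve C σ Q
  refine k3BetaFreyOut P hdvd B hB ζ hζ (pointEquivBC (K := Qb) P.freyCurve C P₀)
    (pointEquivBC (K := Qb) P.freyCurve C T₀) ?_ ?_ ?_ ?_ β u n hβ hu hu1 ?_
  · rw [← map_zsmul, hP₀, _root_.map_zero]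
  · rw [← map_zsmul, hT₀, _root_.map_zero]
  · intro g hg
    obtain ⟨k, hk⟩ := hS1 g hg
    refine ⟨k, ?_⟩
    rw [← hsm, ← map_sub, hk, map_zsmul]
  · intro g hg c hgc
    rw [← hsm, hS2 g hg c hgc, map_nsmul]
  · intro s hs hsζ hsQ
    apply hS3 s hs hsζ
    rw [← hsm] at hsQ
    exact (pointEquivBC (K := Qb) P.freyCurve C).injective hsQ

/-- **K3″ (β-form), integral models of the Frey curve at `p ∣ abc`.** -/
theorem k3BetaModelOut : K3BetaModelOut := by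
  intro P hdvd W hW B hB ζ hζ P₀ T₀ hP₀ hT₀ hS1 hS2 β u n hβ hu hu1 hS3
  obtain ⟨C, hC⟩ := hW
  exact k3_of_variableChange P hdvd _ C hC B hB ζ hζ P₀ T₀ hP₀ hT₀ hS1 hS2 β u n hβ hu hu1 hS3

end Fermat.Agent.FF4.K3Beta
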